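/-
S25, algebra side (helper1428): fibrewise vanishing criteria for finitely generated modules.
A finitely generated module all of whose fibres (at residue fields, or at arbitrary field valued
points) vanish is zero; the vanishing locus of the fibres is open.  These are the abstract
forms of (CB1)/(CB2) of notes/S25/S25_route.md (to be applied to `H¹`).
-/
import Mathlib

set_option autoImplicit false

universe u

namespace Fermat.Agent.S25.Lib.Coh.A2x1428

open scoped TensorProduct

section

variable {R : Type*} [CommRing R] (M : Type*) [AddCommGroup M] [Module R M]

/-- The fibre of a module at a field valued point vanishes iff the fibre at the residue field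
of the kernel does. No finiteness is needed. -/
theorem subsingleton_tensor_field_iff (K : Type*) [Field K] [Algebra R K]
    (p : Ideal R) [p.IsPrime] (hp : RingHom.ker (algebraMap R K) = p) :
    Subsingleton (K ⊗[R] M) ↔ Subsingleton (p.ResidueField ⊗[R] M) := by
  have hle : p ≤ RingHom.ker (algebraMap R K) := hp.ge
  have hunit : p.primeCompl ≤ (IsUnit.submonoid K).comap (algebraMap R K) := by
    intro x hx
    have hx' : algebraMap R K x ≠ 0 := fun h0 => hx (hp ▸ (RingHom.mem_ker).mpr h0)
    exact isUnit_iff_ne_zero.mpr hx'
  let φ : p.ResidueField →+* K := Ideal.ResidueField.lift p (algebraMap R K) hle hunit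
  let _ : Algebra p.ResidueField K := φ.toAlgebra
  have : IsScalarTower R p.ResidueField K := IsScalarTower.of_algebraMap_eq
    (fun r => (Ideal.ResidueField.lift_algebraMap p (algebraMap R K) hle hunit r).symm)
  let e := TensorProduct.AlgebraTensorModule.cancelBaseChange R p.ResidueField K K M
  rw [← e.toEquiv.subsingleton_congr]
  exact Module.FaithfullyFlat.subsingleton_tensorProduct_iff_right p.ResidueField K

variable [Module.Finite R M]

/-- **Nakayama, fibrewise form**: a finitely generated module whose fibres at all residue
fields vanish is zero. -/
theorem subsingleton_of_forall_residueField_tensor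
    (h : ∀ p : PrimeSpectrum R, Subsingleton (p.asIdeal.ResidueField ⊗[R] M)) :
    Subsingleton M := by
  rw [← Module.support_eq_empty_iff (R := R)]
  ext p
  simp only [Module.mem_support_iff_nontrivial_residueField_tensorProduct, Set.mem_empty_iff_false,
    iff_false, not_nontrivial_iff_subsingleton]
  exact h p

/-- The fibre at a residue field vanishes iff the point is outside the support. -/
theorem subsingleton_residueField_tensor_iff (p : PrimeSpectrum R) :
    Subsingleton (p.asIdeal.ResidueField ⊗[R] M) ↔ p ∉ Module.support R M := by
  rw [Module.mem_support_iff_nontrivial_residueField_tensorProduct, not_nontrivial_iff_subsingleton]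

/-- **Openness of the vanishing locus** of the fibres of a finitely generated module. -/
theorem isOpen_setOf_subsingleton_residueField_tensor :
    IsOpen {p : PrimeSpectrum R | Subsingleton (p.asIdeal.ResidueField ⊗[R] M)} := by
  have : {p : PrimeSpectrum R | Subsingleton (p.asIdeal.ResidueField ⊗[R] M)} =
      (Module.support R M)ᶜ := by
    ext p
    exact subsingleton_residueField_tensor_iff M p
  rw [this, Module.support_eq_zeroLocus]
  exact (PrimeSpectrum.isClosed_zeroLocus _).isOpen_compl

/-- Field valued points: the fibre of a finitely generated module at `R → K` vanishes iff the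
image point of `Spec K → Spec R` is outside the support. -/
theorem subsingleton_tensor_field_iff_notMem_support (K : Type*) [Field K] [Algebra R K]
    (p : PrimeSpectrum R) (hp : RingHom.ker (algebraMap R K) = p.asIdeal) :
    Subsingleton (K ⊗[R] M) ↔ p ∉ Module.support R M := by
  rw [subsingleton_tensor_field_iff M K p.asIdeal hp]
  exact subsingleton_residueField_tensor_iff M p

/-- A finitely generated module vanishing at all field valued points (fields in the universe
of `R`) is zero. -/
theorem subsingleton_of_forall_field_tensor {R : Type u} [CommRing R] (M : Type*)
    [AddCommGroup M] [Module R M] [Module.Finite R M]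
    (h : ∀ (K : Type u) [Field K] [Algebra R K], Subsingleton (K ⊗[R] M)) :
    Subsingleton M :=
  subsingleton_of_forall_residueField_tensor M fun p => h p.asIdeal.ResidueField

/-- After localising away from one element, a finitely generated module with vanishing fibre
at `p` vanishes: there is `r ∉ p` killing `M`. -/
theorem exists_notMem_forall_smul_eq_zero (p : PrimeSpectrum R)
    (h : Subsingleton (p.asIdeal.ResidueField ⊗[R] M)) :
    ∃ r : R, r ∉ p.asIdeal ∧ ∀ m : M, r • m = 0 := by
  have hp : p ∉ Module.support R M := (subsingleton_residueField_tensor_iff M p).mp h
  rw [Module.support_eq_zeroLocus, PrimeSpectrum.mem_zeroLocus, Set.not_subset] at hp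
  obtain ⟨r, hr, hrp⟩ := hp
  exact ⟨r, hrp, fun m => Module.mem_annihilator.mp hr m⟩

end

end Fermat.Agent.S25.Lib.Coh.A2x1428
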