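/-
S25, algebra side (helper1428): fibrewise surjectivity of a linear map with finitely generated
cokernel.  Abstract forms of (CB1) (first half) and (CB2) of notes/S25/S25_route.md:
* `d ⊗ S` is surjective iff `S ⊗ coker d = 0`;
* if `coker d` is finitely generated and `d ⊗ κ(p)` is surjective for all primes `p`, then `d`
  is surjective;
* the locus of primes `p` where `d ⊗ κ(p)` is surjective is open, and can be tested on
  arbitrary field valued points.
-/
import Fermat.Agent.S25.Lib.Coh.Nakayama4030

set_option autoImplicit false

universe u

namespace Fermat.Agent.S25.Lib.Coh.A2x1428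

open scoped TensorProduct

section

variable {R : Type*} [CommRing R] {P Q : Type*} [AddCommGroup P] [Module R P]
  [AddCommGroup Q] [Module R Q] (d : P →ₗ[R] Q)

/-- The cokernel commutes with base change: `d ⊗ S` is surjective iff `S ⊗ coker d = 0`. -/
theorem baseChange_surjective_iff_subsingleton (S : Type*) [CommRing S] [Algebra R S] :
    Function.Surjective (d.baseChange S) ↔ Subsingleton (S ⊗[R] (Q ⧸ LinearMap.range d)) := by
  have hex : Function.Exact d (LinearMap.range d).mkQ := by
    intro y
    rw [Submodule.mkQ_apply, Submodule.Quotient.mk_eq_zero]
    exact Iff.rfl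
  have hsurj : Function.Surjective (LinearMap.range d).mkQ := Submodule.mkQ_surjective _
  have hex' : Function.Exact (d.lTensor S) ((LinearMap.range d).mkQ.lTensor S) :=
    lTensor_exact S hex hsurj
  have hsurj' : Function.Surjective ((LinearMap.range d).mkQ.lTensor S) :=
    LinearMap.lTensor_surjective S hsurj
  have hcoe : ∀ x, d.baseChange S x = d.lTensor S x := fun x => by
    rw [← LinearMap.baseChange_eq_ltensor]
  constructor
  · intro h
    refine ⟨fun a b => ?_⟩
    have h0 : ∀ c : S ⊗[R] (Q ⧸ LinearMap.range d), c = 0 := by
      intro c
      obtain ⟨y, rfl⟩ := hsurj' c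
      obtain ⟨x, rfl⟩ := h y
      rw [hcoe]
      exact (hex' _).mpr ⟨x, rfl⟩
    rw [h0 a, h0 b]
  · intro h y
    have h0 : (LinearMap.range d).mkQ.lTensor S y = 0 := Subsingleton.elim _ _
    obtain ⟨x, hx⟩ := (hex' y).mp h0
    exact ⟨x, by rw [hcoe, hx]⟩

/-- Surjectivity of a linear map as vanishing of the cokernel. -/
theorem surjective_iff_subsingleton_coker :
    Function.Surjective d ↔ Subsingleton (Q ⧸ LinearMap.range d) := by
  rw [Submodule.Quotient.subsingleton_iff, LinearMap.range_eq_top]

/-- **(CB1), first half**: if the cokernel of `d` is finitely generated and `d ⊗ κ(p)` is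
surjective for every prime `p`, then `d` is surjective. -/
theorem surjective_of_forall_residueField_baseChange_surjective
    [Module.Finite R (Q ⧸ LinearMap.range d)]
    (h : ∀ p : PrimeSpectrum R, Function.Surjective (d.baseChange p.asIdeal.ResidueField)) :
    Function.Surjective d := by
  rw [surjective_iff_subsingleton_coker]
  exact subsingleton_of_forall_residueField_tensor _
    (fun p => (baseChange_surjective_iff_subsingleton d _).mp (h p))

/-- Surjectivity of the fibre of `d` at a field valued point only depends on the image point
in the spectrum. -/
theorem baseChange_field_surjective_iff (K : Type*) [Field K] [Algebra R K]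
    (p : PrimeSpectrum R) (hp : RingHom.ker (algebraMap R K) = p.asIdeal) :
    Function.Surjective (d.baseChange K) ↔
      Function.Surjective (d.baseChange p.asIdeal.ResidueField) := by
  rw [baseChange_surjective_iff_subsingleton, baseChange_surjective_iff_subsingleton]
  exact subsingleton_tensor_field_iff _ K p.asIdeal hp

/-- **(CB2)**: if the cokernel of `d` is finitely generated, the locus of primes where the
fibre of `d` is surjective is open. -/
theorem isOpen_setOf_baseChange_surjective [Module.Finite R (Q ⧸ LinearMap.range d)] :
    IsOpen {p : PrimeSpectrum R | Function.Surjective (d.baseChange p.asIdeal.ResidueField)} := by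
  have : {p : PrimeSpectrum R | Function.Surjective (d.baseChange p.asIdeal.ResidueField)} =
      {p : PrimeSpectrum R |
        Subsingleton (p.asIdeal.ResidueField ⊗[R] (Q ⧸ LinearMap.range d))} := by
    ext p
    exact baseChange_surjective_iff_subsingleton d _
  rw [this]
  exact isOpen_setOf_subsingleton_residueField_tensor _

/-- The surjectivity locus is the complement of the support of the cokernel. -/
theorem baseChange_residueField_surjective_iff [Module.Finite R (Q ⧸ LinearMap.range d)]
    (p : PrimeSpectrum R) :
    Function.Surjective (d.baseChange p.asIdeal.ResidueField) ↔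
      p ∉ Module.support R (Q ⧸ LinearMap.range d) := by
  rw [baseChange_surjective_iff_subsingleton]
  exact subsingleton_residueField_tensor_iff _ p

/-- Around a prime where the fibre of `d` is surjective, the cokernel is killed by an element
outside the prime. -/
theorem exists_notMem_smul_mem_range [Module.Finite R (Q ⧸ LinearMap.range d)]
    (p : PrimeSpectrum R) (h : Function.Surjective (d.baseChange p.asIdeal.ResidueField)) :
    ∃ r : R, r ∉ p.asIdeal ∧ ∀ y : Q, r • y ∈ LinearMap.range d := by
  obtain ⟨r, hr, hr0⟩ := exists_notMem_forall_smul_eq_zero (Q ⧸ LinearMap.range d) p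
    ((baseChange_surjective_iff_subsingleton d _).mp h)
  refine ⟨r, hr, fun y => ?_⟩
  have := hr0 (Submodule.Quotient.mk y)
  rwa [← Submodule.Quotient.mk_smul, Submodule.Quotient.mk_eq_zero] at this

end

end Fermat.Agent.S25.Lib.Coh.A2x1428
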