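/-
S25, algebra side (helper1428): finiteness of the first Čech cohomology of a glued module.
If `N₁` is generated over `R[f]` by finitely many elements, then `H¹(N)` is a finitely generated
`R`-module (statement (F) of notes/S25/S25_route.md), for an arbitrary two-chart.
-/
import Fermat.Agent.S25.Core

set_option autoImplicit false

universe u

namespace Fermat.Agent.S25.Lib.Coh.A2x1428

open Fermat.Agent.S25

variable {R : Type u} [CommRing R] {𝔹 : TwoChart R} (N : GluedModule 𝔹)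

lemma r₂g_pow_mul_r₁f_pow (𝔹 : TwoChart R) (m : ℕ) : 𝔹.r₂ 𝔹.g ^ m * 𝔹.r₁ 𝔹.f ^ m = 1 := by
  rw [← mul_pow, mul_comm, 𝔹.fg, one_pow]

lemma ι₁_pow_smul (i : ℕ) (n : N.N₁) : N.ι₁ (𝔹.f ^ i • n) = 𝔹.r₁ 𝔹.f ^ i • N.ι₁ n := by
  rw [N.ι₁_smul, map_pow]

lemma ι₂_pow_smul (i : ℕ) (n : N.N₂) : N.ι₂ (𝔹.g ^ i • n) = 𝔹.r₂ 𝔹.g ^ i • N.ι₂ n := by
  rw [N.ι₂_smul, map_pow]

lemma ι₁_mem_range_d (n : N.N₁) : N.ι₁ n ∈ LinearMap.range N.d :=
  ⟨(n, 0), by simp [GluedModule.d]⟩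

lemma ι₂_mem_range_d (n : N.N₂) : N.ι₂ n ∈ LinearMap.range N.d :=
  ⟨(0, -n), by simp [GluedModule.d]⟩

/-- A common exponent `m` such that `g^m • ι₁ e` comes from `N₂` for all `e` in a finite set. -/
lemma exists_pow_smul_mem_range (E : Finset N.N₁) :
    ∃ m : ℕ, ∀ e ∈ E, ∀ b : ℕ, m ≤ b → ∃ n₂ : N.N₂, 𝔹.r₂ 𝔹.g ^ b • N.ι₁ e = N.ι₂ n₂ := by
  classical
  choose n₂ m₂ h using fun e : N.N₁ => N.surj₂ (N.ι₁ e)
  refine ⟨E.sup m₂, fun e he b hb => ?_⟩
  have hle : m₂ e ≤ b := (Finset.le_sup (f := m₂) he).trans hb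
  refine ⟨𝔹.g ^ (b - m₂ e) • n₂ e, ?_⟩
  rw [ι₂_pow_smul, h e, smul_smul]
  congr 1
  have hb' : b = (b - m₂ e) + m₂ e := (Nat.sub_add_cancel hle).symm
  conv_lhs => rw [hb', pow_add, mul_assoc, r₂g_pow_mul_r₁f_pow, mul_one]

/-- **(F)**: if `N₁` is spanned over `R` by the elements `f^i • e`, `e` in a finite set, then
`H¹(N)` is a finitely generated `R`-module. -/
theorem h1_finite_of_span (E : Finset N.N₁)
    (hE : Submodule.span R {x : N.N₁ | ∃ e ∈ E, ∃ i : ℕ, x = 𝔹.f ^ i • e} = ⊤) :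
    Module.Finite R N.H1 := by
  classical
  obtain ⟨m, hm⟩ := exists_pow_smul_mem_range N E
  -- the finite generating set
  let G : Set N.H1 := (fun p : N.N₁ × ℕ =>
    (LinearMap.range N.d).mkQ (𝔹.r₂ 𝔹.g ^ p.2 • N.ι₁ p.1)) '' ((E ×ˢ Finset.range m : Finset _) : Set _)
  have hGfin : G.Finite := (Finset.finite_toSet _).image _
  let S : Submodule R N.H1 := Submodule.span R G
  have hmk0 : ∀ y : N.N₁₂, y ∈ LinearMap.range N.d → (LinearMap.range N.d).mkQ y ∈ S := by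
    intro y hy
    rw [Submodule.mkQ_apply, (Submodule.Quotient.mk_eq_zero _).mpr hy]
    exact S.zero_mem
  -- negative powers of `f` applied to the generators
  have hneg : ∀ e ∈ E, ∀ b : ℕ, (LinearMap.range N.d).mkQ (𝔹.r₂ 𝔹.g ^ b • N.ι₁ e) ∈ S := by
    intro e he b
    by_cases hb : b < m
    · apply Submodule.subset_span
      exact ⟨(e, b), by simp [he, hb], rfl⟩
    · obtain ⟨n₂, hn₂⟩ := hm e he b (not_lt.mp hb)
      rw [hn₂]
      exact hmk0 _ (ι₂_mem_range_d N n₂)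
  -- the key claim
  have key : ∀ (a : ℕ) (n : N.N₁), (LinearMap.range N.d).mkQ (𝔹.r₂ 𝔹.g ^ a • N.ι₁ n) ∈ S := by
    intro a n
    have hn : n ∈ Submodule.span R {x : N.N₁ | ∃ e ∈ E, ∃ i : ℕ, x = 𝔹.f ^ i • e} := by
      rw [hE]
      trivial
    induction hn using Submodule.span_induction with
    | mem x hx =>
      obtain ⟨e, he, i, rfl⟩ := hx
      rw [ι₁_pow_smul, smul_smul]
      rcases le_or_gt a i with hai | hai
      · -- nonnegative power of `f`: comes from `N₁`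
        have h1 : 𝔹.r₂ 𝔹.g ^ a * 𝔹.r₁ 𝔹.f ^ i = 𝔹.r₁ 𝔹.f ^ (i - a) := by
          have hi : i = a + (i - a) := (Nat.add_sub_cancel' hai).symm
          conv_lhs => rw [hi, pow_add, ← mul_assoc, r₂g_pow_mul_r₁f_pow, one_mul]
        rw [h1, ← ι₁_pow_smul]
        exact hmk0 _ (ι₁_mem_range_d N _)
      · have h1 : 𝔹.r₂ 𝔹.g ^ a * 𝔹.r₁ 𝔹.f ^ i = 𝔹.r₂ 𝔹.g ^ (a - i) := by
          have ha : a = (a - i) + i := (Nat.sub_add_cancel hai.le).symm
          conv_lhs => rw [ha, pow_add, mul_assoc, r₂g_pow_mul_r₁f_pow, mul_one]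
        rw [h1]
        exact hneg e he _
    | zero =>
      rw [map_zero, smul_zero, map_zero]
      exact S.zero_mem
    | add x y _ _ hx hy =>
      rw [map_add, smul_add, map_add]
      exact S.add_mem hx hy
    | smul c x _ hx =>
      rw [N.ι₁.map_smul c x, smul_algebra_smul_comm, LinearMap.map_smul]
      exact S.smul_mem c hx
  have htop : S = ⊤ := by
    rw [eq_top_iff]
    rintro z -
    obtain ⟨y, rfl⟩ := (LinearMap.range N.d).mkQ_surjective z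
    obtain ⟨n, a, rfl⟩ := N.surj₁ y
    exact key a n
  rw [Module.finite_def, ← htop]
  exact Submodule.fg_span hGfin

end Fermat.Agent.S25.Lib.Coh.A2x1428
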