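/-
S25, algebra side (helper1428): modules which are, compatibly with the action of one element,
direct summands of finite free modules over a polynomial ring, and the degree bound used for
the finite generation of `H⁰` (statement (CB1) of notes/S25/S25_route.md).
-/
import Mathlib

set_option autoImplicit false

namespace Fermat.Agent.S25.Lib.Coh.A2x1428

open Polynomial

section Defs

variable (R : Type*) [CommRing R] {B : Type*} [CommRing B] (b : B)
  (M : Type*) [AddCommGroup M] [Module R M] [Module B M]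

/-- `M` is, compatibly with the action of `b` (playing the role of the variable), a direct
summand of a finite free module over the polynomial ring `R[X]`. -/
def IsPolySummand : Prop :=
  ∃ (m : ℕ) (j : M →ₗ[R] (Fin m → R[X])) (p : (Fin m → R[X]) →ₗ[R] M),
    (∀ x, p (j x) = x) ∧ (∀ x, j (b • x) = (X : R[X]) • j x) ∧
      (∀ v, p ((X : R[X]) • v) = b • p v)

end Defs

section Basic

variable {R : Type*} [CommRing R] {B : Type*} [CommRing B] {b : B}
  {M : Type*} [AddCommGroup M] [Module R M] [Module B M]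

lemma map_pow_smul_of_map_smul {m : ℕ} (j : M →ₗ[R] (Fin m → R[X]))
    (hj : ∀ x, j (b • x) = (X : R[X]) • j x) (n : ℕ) (x : M) :
    j (b ^ n • x) = (X : R[X]) ^ n • j x := by
  induction n with
  | zero => simp
  | succ n ih => rw [pow_succ', mul_smul, hj, ih, pow_succ', mul_smul]

lemma map_X_pow_smul_of_map_smul {m : ℕ} (p : (Fin m → R[X]) →ₗ[R] M)
    (hp : ∀ v, p ((X : R[X]) • v) = b • p v) (n : ℕ) (v : Fin m → R[X]) :
    p ((X : R[X]) ^ n • v) = b ^ n • p v := by
  induction n with
  | zero => simp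
  | succ n ih => rw [pow_succ', mul_smul, hp, ih, pow_succ', mul_smul]

/-- A summand of a finite free `R[X]`-module is a projective `R`-module. -/
theorem IsPolySummand.projective (h : IsPolySummand R b M) : Module.Projective R M := by
  obtain ⟨m, j, p, hpj, -, -⟩ := h
  exact Module.Projective.of_split j p (LinearMap.ext hpj)

/-- The images of the basis vectors generate `M` under `R` and the powers of `b`. -/
theorem IsPolySummand.exists_finset_span [SMulCommClass R B M] (h : IsPolySummand R b M) :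
    ∃ E : Finset M, Submodule.span R {x : M | ∃ e ∈ E, ∃ i : ℕ, x = b ^ i • e} = ⊤ := by
  classical
  obtain ⟨m, j, p, hpj, -, hp⟩ := h
  refine ⟨Finset.univ.image (fun k : Fin m => p (Pi.single k 1)), ?_⟩
  set S : Submodule R M := Submodule.span R {x : M | ∃ e ∈ Finset.univ.image
    (fun k : Fin m => p (Pi.single k 1)), ∃ i : ℕ, x = b ^ i • e} with hS
  have hsingle : ∀ (k : Fin m) (q : R[X]), p (Pi.single k q) ∈ S := by
    intro k q
    induction q using Polynomial.induction_on' with
    | add q₁ q₂ h₁ h₂ =>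
      rw [Pi.single_add, map_add]
      exact S.add_mem h₁ h₂
    | monomial i c =>
      have h1 : (Pi.single k (monomial i c) : Fin m → R[X]) =
          c • ((X : R[X]) ^ i • (Pi.single k 1 : Fin m → R[X])) := by
        ext l
        by_cases hl : l = k
        · subst hl
          simp [← C_mul_X_pow_eq_monomial, Polynomial.smul_eq_C_mul]
        · simp [Pi.single_eq_of_ne hl]
      rw [h1, map_smul, map_X_pow_smul_of_map_smul p hp]
      refine S.smul_mem c (Submodule.subset_span ⟨p (Pi.single k 1), ?_, i, rfl⟩)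
      exact Finset.mem_image.mpr ⟨k, Finset.mem_univ k, rfl⟩
  rw [eq_top_iff]
  rintro x -
  rw [← hpj x, ← Finset.univ_sum_single (j x), map_sum]
  exact S.sum_mem fun k _ => hsingle k _

end Basic

section DegreeBound

variable {R : Type*} [CommRing R]
  {B₁ B₂ B₁₂ : Type*} [CommRing B₁] [CommRing B₂] [CommRing B₁₂]
  {N₁ N₂ N₁₂ : Type*} [AddCommGroup N₁] [AddCommGroup N₂] [AddCommGroup N₁₂]
  [Module R N₁] [Module R N₂] [Module R N₁₂]
  [Module B₁ N₁] [Module B₂ N₂] [Module B₁₂ N₁₂] [SMulCommClass R B₁₂ N₁₂]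

/-- If `X ^ (s + M) * q = X ^ s * q'` then `natDegree q + M ≤ natDegree q'`, in the form of
a bound on `natDegree q`. -/
lemma natDegree_le_of_X_pow_mul_eq {q q' : R[X]} {s M D : ℕ}
    (h : (X : R[X]) ^ (s + M) * q = (X : R[X]) ^ s * q') (hq' : q'.natDegree ≤ M + D) :
    q.natDegree ≤ D := by
  rw [natDegree_le_iff_coeff_eq_zero]
  intro n hn
  have h1 : ((X : R[X]) ^ (s + M) * q).coeff (n + (s + M)) = q.coeff n := coeff_X_pow_mul q _ _
  have h2 : ((X : R[X]) ^ s * q').coeff ((n + M) + s) = q'.coeff (n + M) := coeff_X_pow_mul q' _ _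
  have h3 : n + (s + M) = (n + M) + s := by omega
  rw [← h1, h, h3, h2]
  exact coeff_eq_zero_of_natDegree_lt (by omega)

/-- **Degree bound.**  In a gluing situation `N₁ → N₁₂ ← N₂` (`N₁₂` the localisation of `N₁`
at `f`, on which `f` acts through the unit `u` with inverse `v`, and `g` acts on `N₂`
compatibly with `v`), if `N₂` is generated over `R` by the `g`-multiples of finitely many
elements and `N₁` embeds in a finite free `R[X]`-module compatibly with `f`, then the first
components of all compatible pairs have bounded degree. -/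
theorem exists_natDegree_bound (f : B₁) (g : B₂) (u v : B₁₂) (huv : u * v = 1)
    (ι₁ : N₁ →ₗ[R] N₁₂) (ι₂ : N₂ →ₗ[R] N₁₂)
    (hι₁ : ∀ x, ι₁ (f • x) = u • ι₁ x) (hι₂ : ∀ x, ι₂ (g • x) = v • ι₂ x)
    (hsurj : ∀ y : N₁₂, ∃ (n : N₁) (m : ℕ), y = v ^ m • ι₁ n)
    (hker : ∀ n : N₁, ι₁ n = 0 → ∃ m : ℕ, f ^ m • n = 0)
    (E₂ : Finset N₂)
    (hE₂ : Submodule.span R {x : N₂ | ∃ e ∈ E₂, ∃ i : ℕ, x = g ^ i • e} = ⊤)
    {m : ℕ} (j : N₁ →ₗ[R] (Fin m → R[X])) (hj : ∀ x, j (f • x) = (X : R[X]) • j x) :
    ∃ D : ℕ, ∀ (a : N₁) (b : N₂), ι₁ a = ι₂ b → ∀ i, (j a i).natDegree ≤ D := by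
  classical
  have huvpow : ∀ n : ℕ, u ^ n * v ^ n = 1 := fun n => by rw [← mul_pow, huv, one_pow]
  have hι₁pow : ∀ (n : ℕ) (x : N₁), ι₁ (f ^ n • x) = u ^ n • ι₁ x := by
    intro n x
    induction n with
    | zero => simp
    | succ n ih => rw [pow_succ', mul_smul, hι₁, ih, pow_succ', mul_smul]
  have hι₂pow : ∀ (n : ℕ) (x : N₂), ι₂ (g ^ n • x) = v ^ n • ι₂ x := by
    intro n x
    induction n with
    | zero => simp
    | succ n ih => rw [pow_succ', mul_smul, hι₂, ih, pow_succ', mul_smul]
  choose n₀ m₀ hnm using fun e : N₂ => hsurj (ι₂ e)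
  -- the bound
  let D : ℕ := (E₂ ×ˢ (Finset.univ : Finset (Fin m))).sup (fun ei => (j (n₀ ei.1) ei.2).natDegree)
  have hD : ∀ e ∈ E₂, ∀ i, (j (n₀ e) i).natDegree ≤ D := fun e he i =>
    Finset.le_sup (f := fun ei : N₂ × Fin m => (j (n₀ ei.1) ei.2).natDegree) (b := (e, i))
      (Finset.mem_product.mpr ⟨he, Finset.mem_univ i⟩)
  refine ⟨D, ?_⟩
  -- every element of `N₂` becomes, after multiplication by a power of `u`, the image of an
  -- element of `N₁` of controlled degree
  have key : ∀ b : N₂, ∃ (M : ℕ) (a' : N₁), u ^ M • ι₂ b = ι₁ a' ∧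
      ∀ i, (j a' i).natDegree ≤ M + D := by
    intro b
    have hb : b ∈ Submodule.span R {x : N₂ | ∃ e ∈ E₂, ∃ i : ℕ, x = g ^ i • e} := by
      rw [hE₂]
      trivial
    induction hb using Submodule.span_induction with
    | mem x hx =>
      obtain ⟨e, he, i, rfl⟩ := hx
      refine ⟨i + m₀ e, n₀ e, ?_, fun l => (hD e he l).trans (Nat.le_add_left _ _)⟩
      rw [hι₂pow, hnm e, smul_smul, smul_smul, mul_assoc, ← pow_add, huvpow, one_smul]
    | zero => exact ⟨0, 0, by simp, fun i => by simp⟩
    | add x y _ _ hx hy =>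
      obtain ⟨M, a', h1, h2⟩ := hx
      obtain ⟨M', a'', h1', h2'⟩ := hy
      refine ⟨M + M', f ^ M' • a' + f ^ M • a'', ?_, fun i => ?_⟩
      · rw [map_add, smul_add, map_add, hι₁pow, hι₁pow, ← h1, ← h1', smul_smul, smul_smul,
          ← pow_add, ← pow_add, add_comm M' M]
      · rw [map_add, map_pow_smul_of_map_smul j hj, map_pow_smul_of_map_smul j hj]
        refine (natDegree_add_le _ _).trans (max_le ?_ ?_)
        · change ((X : R[X]) ^ M' * j a' i).natDegree ≤ M + M' + D
          refine natDegree_mul_le.trans ?_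
          have := natDegree_X_pow_le (R := R) M'
          have := h2 i
          omega
        · change ((X : R[X]) ^ M * j a'' i).natDegree ≤ M + M' + D
          refine natDegree_mul_le.trans ?_
          have := natDegree_X_pow_le (R := R) M
          have := h2' i
          omega
    | smul c x _ hx =>
      obtain ⟨M, a', h1, h2⟩ := hx
      refine ⟨M, c • a', ?_, fun i => ?_⟩
      · rw [map_smul, map_smul, ← h1]
        exact (smul_comm c (u ^ M) (ι₂ x)).symm
      · rw [map_smul]
        exact (natDegree_smul_le c _).trans (h2 i)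
  intro a b hab i
  obtain ⟨M, a', h1, h2⟩ := key b
  have h3 : ι₁ (f ^ M • a - a') = 0 := by
    rw [map_sub, hι₁pow, hab, h1, sub_self]
  obtain ⟨s, hs⟩ := hker _ h3
  have h4 : (X : R[X]) ^ (s + M) * j a i = (X : R[X]) ^ s * j a' i := by
    have h5 : f ^ (s + M) • a = f ^ s • a' := by
      rw [smul_sub, smul_smul, ← pow_add, sub_eq_zero] at hs
      exact hs
    have h6 := congrArg (fun x => j x i) h5
    simp only [map_pow_smul_of_map_smul j hj] at h6
    exact h6
  exact natDegree_le_of_X_pow_mul_eq h4 (h2 i)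

/-- The vectors of polynomials of degree at most `D`. -/
noncomputable def degLE (R : Type*) [CommRing R] (m D : ℕ) : Submodule R (Fin m → R[X]) :=
  Submodule.pi Set.univ (fun _ => Polynomial.degreeLE R D)

lemma mem_degLE {m D : ℕ} {v : Fin m → R[X]} :
    v ∈ degLE R m D ↔ ∀ i, (v i).natDegree ≤ D := by
  simp only [degLE, Submodule.mem_pi, Set.mem_univ, forall_true_left, mem_degreeLE,
    natDegree_le_iff_degree_le]

lemma degLE_fg (m D : ℕ) : (degLE R m D).FG := by
  classical
  refine Submodule.fg_pi fun _ => ?_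
  rw [degreeLE_eq_span_X_pow]
  exact Submodule.fg_span (Finset.finite_toSet _)

end DegreeBound

end Fermat.Agent.S25.Lib.Coh.A2x1428
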