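/-
S25, algebra side (helper1428): kernels of split surjections.
Abstract form of (CB1) of notes/S25/S25_route.md: if `d : P → Q` is surjective and `Q` is
projective, then `ker d` is a direct summand of `P`; it is projective if `P` is, finitely
generated if it lies in a finitely generated submodule, and its formation commutes with every
base change.
-/
import Mathlib

set_option autoImplicit false

namespace Fermat.Agent.S25.Lib.Coh.A2x1428

open scoped TensorProduct

section

variable {R : Type*} [CommRing R] {P Q : Type*} [AddCommGroup P] [Module R P]
  [AddCommGroup Q] [Module R Q] (d : P →ₗ[R] Q)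

/-- A surjection onto a projective module has a linear section. -/
theorem exists_section_of_surjective [Module.Projective R Q] (hd : Function.Surjective d) :
    ∃ s : Q →ₗ[R] P, d ∘ₗ s = LinearMap.id :=
  Module.projective_lifting_property d LinearMap.id hd

/-- The retraction of `P` onto `ker d` attached to a section of `d`. -/
def kerRetraction (s : Q →ₗ[R] P) (hs : d ∘ₗ s = LinearMap.id) : P →ₗ[R] LinearMap.ker d :=
  (LinearMap.id - s ∘ₗ d).codRestrict (LinearMap.ker d) (fun x => by
    have h1 : d (s (d x)) = d x := by
      have := LinearMap.congr_fun hs (d x)
      simpa using this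
    simp [LinearMap.mem_ker, h1])

lemma kerRetraction_coe (s : Q →ₗ[R] P) (hs : d ∘ₗ s = LinearMap.id) (x : P) :
    ((kerRetraction d s hs x : LinearMap.ker d) : P) = x - s (d x) := rfl

lemma kerRetraction_comp_subtype (s : Q →ₗ[R] P) (hs : d ∘ₗ s = LinearMap.id) :
    kerRetraction d s hs ∘ₗ (LinearMap.ker d).subtype = LinearMap.id := by
  ext x
  have hx : d (x : P) = 0 := x.2
  simp [kerRetraction_coe, hx]

lemma subtype_comp_kerRetraction_add (s : Q →ₗ[R] P) (hs : d ∘ₗ s = LinearMap.id) :
    (LinearMap.ker d).subtype ∘ₗ kerRetraction d s hs + s ∘ₗ d = LinearMap.id := by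
  ext x
  simp [kerRetraction_coe]

/-- The kernel of a surjection between projective modules is projective. -/
theorem ker_projective_of_surjective [Module.Projective R Q] [Module.Projective R P]
    (hd : Function.Surjective d) : Module.Projective R (LinearMap.ker d) := by
  obtain ⟨s, hs⟩ := exists_section_of_surjective d hd
  exact Module.Projective.of_split (LinearMap.ker d).subtype (kerRetraction d s hs)
    (kerRetraction_comp_subtype d s hs)

/-- The kernel of a surjection onto a projective module is finitely generated as soon as it is
contained in a finitely generated submodule. -/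
theorem ker_fg_of_le [Module.Projective R Q] (hd : Function.Surjective d)
    (F : Submodule R P) (hF : F.FG) (hle : LinearMap.ker d ≤ F) : (LinearMap.ker d).FG := by
  obtain ⟨s, hs⟩ := exists_section_of_surjective d hd
  have h : LinearMap.ker d = F.map ((LinearMap.ker d).subtype ∘ₗ kerRetraction d s hs) := by
    apply le_antisymm
    · intro x hx
      refine ⟨x, hle hx, ?_⟩
      have hx' : d x = 0 := hx
      simp [kerRetraction_coe, hx']
    · rintro _ ⟨y, -, rfl⟩
      exact (kerRetraction d s hs y).2
  rw [h]
  exact hF.map _

/-- Module-finite version of `ker_fg_of_le`. -/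
theorem ker_finite_of_le [Module.Projective R Q] (hd : Function.Surjective d)
    (F : Submodule R P) (hF : F.FG) (hle : LinearMap.ker d ≤ F) :
    Module.Finite R (LinearMap.ker d) :=
  Module.Finite.iff_fg.mpr (ker_fg_of_le d hd F hF hle)

variable (S : Type*) [CommRing S] [Algebra R S]

/-- Base change of the inclusion of the kernel of a split surjection is injective. -/
theorem baseChange_subtype_ker_injective [Module.Projective R Q] (hd : Function.Surjective d) :
    Function.Injective ((LinearMap.ker d).subtype.baseChange S) := by
  obtain ⟨s, hs⟩ := exists_section_of_surjective d hd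
  have h : (kerRetraction d s hs).baseChange S ∘ₗ (LinearMap.ker d).subtype.baseChange S =
      LinearMap.id := by
    rw [← LinearMap.baseChange_comp, kerRetraction_comp_subtype, LinearMap.baseChange_id]
  exact Function.LeftInverse.injective (g := (kerRetraction d s hs).baseChange S)
    (fun x => LinearMap.congr_fun h x)

/-- The kernel of a split surjection commutes with base change. -/
theorem ker_baseChange_eq_range [Module.Projective R Q] (hd : Function.Surjective d) :
    LinearMap.ker (d.baseChange S) = LinearMap.range ((LinearMap.ker d).subtype.baseChange S) := by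
  obtain ⟨s, hs⟩ := exists_section_of_surjective d hd
  apply le_antisymm
  · intro x hx
    have hx' : d.baseChange S x = 0 := hx
    have h := congrArg (fun φ : P →ₗ[R] P => φ.baseChange S)
      (subtype_comp_kerRetraction_add d s hs)
    simp only [LinearMap.baseChange_add, LinearMap.baseChange_comp, LinearMap.baseChange_id] at h
    have h2 := LinearMap.congr_fun h x
    simp only [LinearMap.add_apply, LinearMap.comp_apply, hx', map_zero, add_zero,
      LinearMap.id_apply] at h2
    exact ⟨_, h2⟩
  · rintro _ ⟨y, rfl⟩
    have h0 : d ∘ₗ (LinearMap.ker d).subtype = 0 := by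
      ext x
      exact x.2
    have h := congrArg (fun φ : LinearMap.ker d →ₗ[R] Q => φ.baseChange S) h0
    simp only [LinearMap.baseChange_comp, LinearMap.baseChange_zero] at h
    exact LinearMap.congr_fun h y

/-- The base change of the kernel of a split surjection is the kernel of the base change. -/
noncomputable def kerBaseChangeEquiv [Module.Projective R Q] (hd : Function.Surjective d) :
    S ⊗[R] LinearMap.ker d ≃ₗ[S] LinearMap.ker (d.baseChange S) :=
  (LinearEquiv.ofInjective ((LinearMap.ker d).subtype.baseChange S)
      (baseChange_subtype_ker_injective d S hd)).trans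
    (LinearEquiv.ofEq _ _ (ker_baseChange_eq_range d S hd).symm)

lemma kerBaseChangeEquiv_coe [Module.Projective R Q] (hd : Function.Surjective d)
    (x : S ⊗[R] LinearMap.ker d) :
    ((kerBaseChangeEquiv d S hd x : LinearMap.ker (d.baseChange S)) : S ⊗[R] P) =
      (LinearMap.ker d).subtype.baseChange S x := rfl

/-- Surjectivity is preserved by base change. -/
theorem baseChange_surjective_of_surjective (hd : Function.Surjective d) :
    Function.Surjective (d.baseChange S) :=
  LinearMap.lTensor_surjective S hd

end

end Fermat.Agent.S25.Lib.Coh.A2x1428
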