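/-
S25, algebra side (helper1428): finiteness, projectivity and base change of `H⁰` of a glued
module with vanishing `H¹` (statement (CB1) of notes/S25/S25_route.md), for an arbitrary
two-chart whose chart modules are summands of finite free polynomial modules.
-/
import Fermat.Agent.S25.Core
import Fermat.Agent.S25.Lib.Coh.H1Finite4030
import Fermat.Agent.S25.Lib.Coh.PolySummand4030
import Fermat.Agent.S25.Lib.Coh.Split4030
import Fermat.Agent.S25.Lib.Coh.Coker4030

set_option autoImplicit false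

universe u

namespace Fermat.Agent.S25.Lib.Coh.A2x1428

open Fermat.Agent.S25 Polynomial
open scoped TensorProduct

variable {R : Type u} [CommRing R] {𝔹 : TwoChart R} (N : GluedModule 𝔹)

lemma mem_H0_iff (x : N.N₁ × N.N₂) : x ∈ N.H0 ↔ N.ι₁ x.1 = N.ι₂ x.2 := by
  simp [GluedModule.H0, GluedModule.d, sub_eq_zero]

/-- **(F)** for chart modules which are polynomial summands. -/
theorem h1_finite_of_isPolySummand (h₁ : IsPolySummand R 𝔹.f N.N₁) : Module.Finite R N.H1 := by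
  obtain ⟨E, hE⟩ := h₁.exists_finset_span
  exact h1_finite_of_span N E hE

/-- The chart modules, hence their product, are projective over the base. -/
theorem prod_projective_of_isPolySummand (h₁ : IsPolySummand R 𝔹.f N.N₁)
    (h₂ : IsPolySummand R 𝔹.g N.N₂) : Module.Projective R (N.N₁ × N.N₂) := by
  have := h₁.projective
  have := h₂.projective
  infer_instance

/-- `H⁰` is contained in a finitely generated submodule of `N₁ × N₂`. -/
theorem exists_fg_H0_le (h₁ : IsPolySummand R 𝔹.f N.N₁) (h₂ : IsPolySummand R 𝔹.g N.N₂) :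
    ∃ F : Submodule R (N.N₁ × N.N₂), F.FG ∧ N.H0 ≤ F := by
  obtain ⟨E₁, hE₁⟩ := h₁.exists_finset_span
  obtain ⟨E₂, hE₂⟩ := h₂.exists_finset_span
  obtain ⟨m₁, j₁, p₁, hpj₁, hj₁, -⟩ := h₁
  obtain ⟨m₂, j₂, p₂, hpj₂, hj₂, -⟩ := h₂
  have hfg : 𝔹.r₁ 𝔹.f * 𝔹.r₂ 𝔹.g = 1 := 𝔹.fg
  have hgf : 𝔹.r₂ 𝔹.g * 𝔹.r₁ 𝔹.f = 1 := by rw [mul_comm]; exact 𝔹.fg
  obtain ⟨D₁, hD₁⟩ := exists_natDegree_bound (R := R) 𝔹.f 𝔹.g (𝔹.r₁ 𝔹.f) (𝔹.r₂ 𝔹.g) hfg
    N.ι₁ N.ι₂ (N.ι₁_smul _) (N.ι₂_smul _) N.surj₁ N.ker₁ E₂ hE₂ j₁ hj₁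
  obtain ⟨D₂, hD₂⟩ := exists_natDegree_bound (R := R) 𝔹.g 𝔹.f (𝔹.r₂ 𝔹.g) (𝔹.r₁ 𝔹.f) hgf
    N.ι₂ N.ι₁ (N.ι₂_smul _) (N.ι₁_smul _) N.surj₂ N.ker₂ E₁ hE₁ j₂ hj₂
  refine ⟨((degLE R m₁ D₁).map p₁).prod ((degLE R m₂ D₂).map p₂),
    ((degLE_fg m₁ D₁).map p₁).prod ((degLE_fg m₂ D₂).map p₂), ?_⟩
  rintro ⟨a, b⟩ hab
  rw [mem_H0_iff] at hab
  refine Submodule.mem_prod.mpr ⟨⟨j₁ a, mem_degLE.mpr (hD₁ a b hab), hpj₁ a⟩,
    ⟨j₂ b, mem_degLE.mpr (hD₂ b a hab.symm), hpj₂ b⟩⟩

/-- **(CB1), finiteness**: if `H¹ = 0` then `H⁰` is a finitely generated module. -/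
theorem h0_finite (h₁ : IsPolySummand R 𝔹.f N.N₁) (h₂ : IsPolySummand R 𝔹.g N.N₂)
    [Module.Projective R N.N₁₂] (hd : Function.Surjective N.d) : Module.Finite R N.H0 := by
  obtain ⟨F, hF, hle⟩ := exists_fg_H0_le N h₁ h₂
  exact ker_finite_of_le N.d hd F hF hle

/-- **(CB1), projectivity**: if `H¹ = 0` then `H⁰` is a projective module. -/
theorem h0_projective (h₁ : IsPolySummand R 𝔹.f N.N₁) (h₂ : IsPolySummand R 𝔹.g N.N₂)
    [Module.Projective R N.N₁₂] (hd : Function.Surjective N.d) : Module.Projective R N.H0 := by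
  have := prod_projective_of_isPolySummand N h₁ h₂
  exact ker_projective_of_surjective N.d hd

/-- **(CB1), vanishing**: if the fibres of the Čech differential at all primes are surjective
(i.e. `H¹` of all fibres vanishes) then `H¹ = 0`. -/
theorem d_surjective_of_fibres (h₁ : IsPolySummand R 𝔹.f N.N₁)
    (h : ∀ p : PrimeSpectrum R, Function.Surjective (N.d.baseChange p.asIdeal.ResidueField)) :
    Function.Surjective N.d := by
  have : Module.Finite R (N.N₁₂ ⧸ LinearMap.range N.d) := h1_finite_of_isPolySummand N h₁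
  exact surjective_of_forall_residueField_baseChange_surjective N.d h

/-- **(CB2)**: the locus of primes where `H¹` of the fibre vanishes is open. -/
theorem isOpen_setOf_fibre_d_surjective (h₁ : IsPolySummand R 𝔹.f N.N₁) :
    IsOpen {p : PrimeSpectrum R |
      Function.Surjective (N.d.baseChange p.asIdeal.ResidueField)} := by
  have : Module.Finite R (N.N₁₂ ⧸ LinearMap.range N.d) := h1_finite_of_isPolySummand N h₁
  exact isOpen_setOf_baseChange_surjective N.d

/-- **(CB1), base change**: if `H¹ = 0`, the formation of `H⁰` commutes with every base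
change. -/
noncomputable def h0BaseChangeEquiv [Module.Projective R N.N₁₂] (hd : Function.Surjective N.d)
    (S : Type*) [CommRing S] [Algebra R S] :
    S ⊗[R] N.H0 ≃ₗ[S] LinearMap.ker (N.d.baseChange S) :=
  kerBaseChangeEquiv N.d S hd

end Fermat.Agent.S25.Lib.Coh.A2x1428
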