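/-
S25, algebra side (helper4030): modules over a ring `B` which is free of finite rank over a
polynomial ring `R[X]` (`X ↦ b`).  Finitely generated projective `B`-modules are, compatibly with
`b ↔ X`, `R`-linear direct summands of `Fin m → R[X]`; consequences: `b` acts injectively, and the
quotient by `b` is a finitely generated projective `R`-module.  Mathlib only.

These are the "instantiation" hypotheses of (F), (CB1), (CB2) and of 2.3 (degree is locally
constant) of notes/S25/S25_route.md for line bundles on the curve chart.
-/
import Mathlib

set_option autoImplicit false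

namespace Fermat.Agent.S25.Lib.Coh

open Polynomial

section Pi

/-- A finite power of a projective module is projective. -/
theorem projective_pi_fin (R : Type*) [CommRing R] (S : Type*) [AddCommGroup S] [Module R S]
    [Module.Projective R S] (ι : Type*) [Finite ι] : Module.Projective R (ι → S) := by
  classical
  have := Fintype.ofFinite ι
  exact Module.Projective.of_equiv
    (DFinsupp.linearEquivFunOnFintype (R := R) (M := fun _ : ι => S))

/-- A finitely generated projective module over an `R`-algebra `S` which is projective as an
`R`-module is projective over `R`. -/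
theorem projective_of_tower (R : Type*) [CommRing R] (S : Type*) [CommRing S] [Algebra R S]
    (P : Type*) [AddCommGroup P] [Module R P] [Module S P] [IsScalarTower R S P]
    [Module.Projective R S] [Module.Finite S P] [Module.Projective S P] :
    Module.Projective R P := by
  obtain ⟨n, π, hπ⟩ := Module.Finite.exists_fin' S P
  obtain ⟨s, hs⟩ := Module.projective_lifting_property π LinearMap.id hπ
  have := projective_pi_fin R S (Fin n)
  refine Module.Projective.of_split (s.restrictScalars R) (π.restrictScalars R) ?_
  ext x
  exact LinearMap.congr_fun hs x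

end Pi

section Defs

/-- `B` is free of finite rank over the polynomial ring `R[X]`, the variable acting as `b`:
there is an `R`-linear bijection `(Fin n → R[X]) → B` carrying `X • -` to `b * -`. -/
def IsPolyFree (R : Type*) [CommRing R] {B : Type*} [CommRing B] [Algebra R B] (b : B) : Prop :=
  ∃ (n : ℕ) (e : (Fin n → R[X]) →ₗ[R] B), Function.Bijective e ∧
    ∀ c, e ((X : R[X]) • c) = b * e c

/-- The shape of helper1428's `IsPolySummand` (same unfolded statement, stated here without
importing that file): `M` is, compatibly with the action of `b`, an `R`-linear direct summand of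
`Fin m → R[X]`. -/
def PolySummandShape (R : Type*) [CommRing R] {B : Type*} [CommRing B] (b : B)
    (M : Type*) [AddCommGroup M] [Module R M] [Module B M] : Prop :=
  ∃ (m : ℕ) (j : M →ₗ[R] (Fin m → R[X])) (p : (Fin m → R[X]) →ₗ[R] M),
    (∀ x, p (j x) = x) ∧ (∀ x, j (b • x) = (X : R[X]) • j x) ∧
      (∀ v, p ((X : R[X]) • v) = b • p v)

end Defs

section Summand

variable {R : Type*} [CommRing R] {B : Type*} [CommRing B] [Algebra R B] {b : B}
  {M : Type*} [AddCommGroup M] [Module R M] [Module B M] [IsScalarTower R B M]

/-- A ring which is polynomially free over `R` is a free `R`-module. -/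
theorem IsPolyFree.free (hB : IsPolyFree R b) : Module.Free R B := by
  obtain ⟨n, e, he, -⟩ := hB
  exact Module.Free.of_equiv (LinearEquiv.ofBijective e he)

/-- **Polynomial summand.**  A finitely generated projective module over a polynomially free
ring is, compatibly with `b ↔ X`, an `R`-linear direct summand of some `Fin m → R[X]`. -/
theorem IsPolyFree.polySummandShape (hB : IsPolyFree R b) [Module.Finite B M]
    [Module.Projective B M] : PolySummandShape R b M := by
  classical
  obtain ⟨n, e, he, heX⟩ := hB
  obtain ⟨n', π, hπ⟩ := Module.Finite.exists_fin' B M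
  obtain ⟨s, hs⟩ := Module.projective_lifting_property π LinearMap.id hπ
  have hs' : ∀ x, π (s x) = x := fun x => LinearMap.congr_fun hs x
  let E : (Fin n → R[X]) ≃ₗ[R] B := LinearEquiv.ofBijective e he
  have hE : ∀ c, E c = e c := fun c => rfl
  have hEX : ∀ c, E ((X : R[X]) • c) = b * E c := heX
  have hEsymm : ∀ y : B, E.symm (b * y) = (X : R[X]) • E.symm y := by
    intro y
    apply E.injective
    rw [hEX, E.apply_symm_apply, E.apply_symm_apply]
  let q : Fin n' × Fin n ≃ Fin (n' * n) := finProdFinEquiv
  let j : M →ₗ[R] (Fin (n' * n) → R[X]) :=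
    { toFun := fun x t => E.symm (s x (q.symm t).1) (q.symm t).2
      map_add' := fun x y => by
        funext t
        simp only [map_add, Pi.add_apply]
      map_smul' := fun r x => by
        funext t
        simp only [RingHom.id_apply, Pi.smul_apply]
        rw [LinearMap.map_smul_of_tower, Pi.smul_apply, map_smul, Pi.smul_apply] }
  let p : (Fin (n' * n) → R[X]) →ₗ[R] M :=
    { toFun := fun v => π (fun i => E (fun l => v (q (i, l))))
      map_add' := fun v w => by
        have : (fun i => E (fun l => (v + w) (q (i, l)))) =
            (fun i => E (fun l => v (q (i, l)))) + (fun i => E (fun l => w (q (i, l)))) := by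
          funext i
          rw [Pi.add_apply, ← map_add]
          rfl
        rw [this, map_add]
      map_smul' := fun r v => by
        have : (fun i => E (fun l => (r • v) (q (i, l)))) =
            r • (fun i => E (fun l => v (q (i, l)))) := by
          funext i
          rw [Pi.smul_apply, ← map_smul]
          rfl
        rw [this, LinearMap.map_smul_of_tower, RingHom.id_apply] }
  refine ⟨n' * n, j, p, ?_, ?_, ?_⟩
  · intro x
    change π (fun i => E (fun l => E.symm (s x (q.symm (q (i, l))).1) (q.symm (q (i, l))).2)) = x
    have : (fun i => E (fun l => E.symm (s x (q.symm (q (i, l))).1) (q.symm (q (i, l))).2)) =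
        s x := by
      funext i
      have : (fun l => E.symm (s x (q.symm (q (i, l))).1) (q.symm (q (i, l))).2) =
          E.symm (s x i) := by
        funext l
        rw [Equiv.symm_apply_apply]
      rw [this, E.apply_symm_apply]
    rw [this, hs']
  · intro x
    funext t
    change E.symm (s (b • x) (q.symm t).1) (q.symm t).2 =
      (X : R[X]) • E.symm (s x (q.symm t).1) (q.symm t).2
    rw [map_smul, Pi.smul_apply, smul_eq_mul, hEsymm, Pi.smul_apply]
  · intro v
    change π (fun i => E (fun l => ((X : R[X]) • v) (q (i, l)))) =
      b • π (fun i => E (fun l => v (q (i, l))))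
    have : (fun i => E (fun l => ((X : R[X]) • v) (q (i, l)))) =
        b • (fun i => E (fun l => v (q (i, l)))) := by
      funext i
      rw [Pi.smul_apply, smul_eq_mul, ← hEX]
      rfl
    rw [this, map_smul]

end Summand

section Consequences

variable {R : Type*} [CommRing R] {B : Type*} [CommRing B] {b : B}
  {M : Type*} [AddCommGroup M] [Module R M] [Module B M]

/-- A polynomial summand is a projective `R`-module. -/
theorem PolySummandShape.projective (h : PolySummandShape R b M) : Module.Projective R M := by
  obtain ⟨m, j, p, hpj, -, -⟩ := h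
  have := projective_pi_fin R R[X] (Fin m)
  exact Module.Projective.of_split j p (LinearMap.ext hpj)

/-- On a polynomial summand, `b` acts injectively. -/
theorem PolySummandShape.smul_injective (h : PolySummandShape R b M) :
    Function.Injective (fun x : M => b • x) := by
  obtain ⟨m, j, p, hpj, hj, -⟩ := h
  intro x y hxy
  have h1 : (X : R[X]) • j x = (X : R[X]) • j y := by
    rw [← hj, ← hj]
    exact congrArg j hxy
  have h2 : j x = j y := by
    funext t
    have := congrFun h1 t
    simp only [Pi.smul_apply, smul_eq_mul] at this
    exact (Polynomial.isRegular_X (R := R)).left this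
  rw [← hpj x, ← hpj y, h2]

/-- On a polynomial summand, the quotient by `b` is a retract of `Fin m → R`: it is a finitely
generated projective `R`-module.  (`φ` is multiplication by `b`, as an `R`-linear map.) -/
theorem PolySummandShape.quotient_retract (h : PolySummandShape R b M) (φ : M →ₗ[R] M)
    (hφ : ∀ x, φ x = b • x) :
    ∃ (m : ℕ) (i : (M ⧸ LinearMap.range φ) →ₗ[R] (Fin m → R))
      (s : (Fin m → R) →ₗ[R] (M ⧸ LinearMap.range φ)), s ∘ₗ i = LinearMap.id := by
  obtain ⟨m, j, p, hpj, hj, hp⟩ := h
  let ev0 : (Fin m → R[X]) →ₗ[R] (Fin m → R) :=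
    LinearMap.pi (fun t => (Polynomial.lcoeff R 0).comp (LinearMap.proj t))
  let cst : (Fin m → R) →ₗ[R] (Fin m → R[X]) :=
    LinearMap.pi (fun t => (Polynomial.monomial 0 : R →ₗ[R] R[X]).comp (LinearMap.proj t))
  have hev0 : ∀ v t, ev0 v t = (v t).coeff 0 := fun v t => rfl
  have hcst : ∀ w t, cst w t = C (w t) := fun w t => rfl
  have hker : LinearMap.range φ ≤ LinearMap.ker (ev0.comp j) := by
    rintro _ ⟨x, rfl⟩
    rw [LinearMap.mem_ker, LinearMap.comp_apply, hφ, hj]
    funext t
    rw [hev0, Pi.smul_apply, smul_eq_mul, Polynomial.coeff_zero_eq_eval_zero, Polynomial.eval_mul,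
      Polynomial.eval_X, zero_mul]
    rfl
  refine ⟨m, (LinearMap.range φ).liftQ (ev0.comp j) hker,
    (LinearMap.range φ).mkQ.comp (p.comp cst), ?_⟩
  apply LinearMap.ext
  intro y
  obtain ⟨x, rfl⟩ := Submodule.Quotient.mk_surjective _ y
  rw [LinearMap.comp_apply, LinearMap.id_apply]
  change (LinearMap.range φ).mkQ (p (cst (ev0 (j x)))) = (LinearMap.range φ).mkQ x
  have hdec : j x = cst (ev0 (j x)) + (X : R[X]) • (fun t => (j x t).divX) := by
    funext t
    rw [Pi.add_apply, hcst, hev0, Pi.smul_apply, smul_eq_mul, add_comm, mul_comm]
    exact (Polynomial.divX_mul_X_add (j x t)).symm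
  have hx : x = p (cst (ev0 (j x))) + φ (p (fun t => (j x t).divX)) := by
    conv_lhs => rw [← hpj x, hdec]
    rw [map_add, hp, hφ]
  conv_rhs => rw [hx]
  rw [map_add]
  have : (LinearMap.range φ).mkQ (φ (p (fun t => (j x t).divX))) = 0 := by
    rw [Submodule.mkQ_apply, Submodule.Quotient.mk_eq_zero]
    exact LinearMap.mem_range_self _ _
  rw [this, add_zero]

/-- On a polynomial summand, the quotient by `b` is a finitely generated `R`-module. -/
theorem PolySummandShape.quotient_finite (h : PolySummandShape R b M) (φ : M →ₗ[R] M)
    (hφ : ∀ x, φ x = b • x) : Module.Finite R (M ⧸ LinearMap.range φ) := by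
  obtain ⟨m, i, s, hsi⟩ := h.quotient_retract φ hφ
  refine Module.Finite.of_surjective s (fun y => ⟨i y, ?_⟩)
  exact LinearMap.congr_fun hsi y

/-- On a polynomial summand, the quotient by `b` is a projective `R`-module. -/
theorem PolySummandShape.quotient_projective (h : PolySummandShape R b M) (φ : M →ₗ[R] M)
    (hφ : ∀ x, φ x = b • x) : Module.Projective R (M ⧸ LinearMap.range φ) := by
  obtain ⟨m, i, s, hsi⟩ := h.quotient_retract φ hφ
  exact Module.Projective.of_split i s hsi

end Consequences

end Fermat.Agent.S25.Lib.Coh
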