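/-
S25, algebra side (helper4030): structure of the chart modules of a glued module whose chart
modules are finitely generated projective (e.g. a line bundle), over a two-chart whose chart rings
are polynomially free over the base (`B₁` over `R[f]`, `B₂` over `R[g]`).

* `N₁₂ ≃ B₁₂ ⊗[B₁] N₁` (`overlapEquiv₁`), hence `N₁₂` is finite / projective / invertible over
  `B₁₂`, and projective over `R` as soon as `B₁₂` is;
* `N₁`, `N₂` are polynomial summands (the hypothesis of (F), (CB1), (CB2));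
* `g` acts injectively on `N₂` and `N₂ / g N₂` is finitely generated projective over `R`
  (the hypothesis of 2.3 "degree is locally constant").

On `Fermat/Agent/S25/Core.lean` (helper5425) and `Fermat/Agent/S25/A1/Basic.lean` (helper7630).
-/
import Fermat.Agent.S25.A1.Basic
import Fermat.Agent.S25.Lib.Coh.PolyStruct4030

set_option autoImplicit false

universe u

namespace Fermat.Agent.S25.Lib.Coh

open Fermat.Agent.S25 Polynomial
open scoped TensorProduct

variable {R : Type u} [CommRing R] {𝔹 : TwoChart R} (N : GluedModule 𝔹)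

/-- `N₁₂ = B₁₂ ⊗[B₁] N₁` (`B₁₂` a `B₁`-algebra via `r₁`). -/
noncomputable def overlapEquiv₁ :
    letI := 𝔹.algebra₁
    (𝔹.B₁₂ ⊗[𝔹.B₁] N.N₁) ≃ₗ[𝔹.B₁₂] N.N₁₂ :=
  letI := 𝔹.algebra₁
  letI := N.module₁
  haveI := N.isScalarTower₁
  haveI := 𝔹.isLocalization₁
  haveI := N.isLocalizedModule₁
  (IsLocalizedModule.isBaseChange (Submonoid.powers 𝔹.f) 𝔹.B₁₂ N.ι₁ₗ).equiv

/-- `N₁₂ = B₁₂ ⊗[B₂] N₂` (`B₁₂` a `B₂`-algebra via `r₂`). -/
noncomputable def overlapEquiv₂ :
    letI := 𝔹.algebra₂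
    (𝔹.B₁₂ ⊗[𝔹.B₂] N.N₂) ≃ₗ[𝔹.B₁₂] N.N₁₂ :=
  letI := 𝔹.algebra₂
  letI := N.module₂
  haveI := N.isScalarTower₂
  haveI := 𝔹.isLocalization₂
  haveI := N.isLocalizedModule₂
  (IsLocalizedModule.isBaseChange (Submonoid.powers 𝔹.g) 𝔹.B₁₂ N.ι₂ₗ).equiv

theorem overlapEquiv₁_tmul (c : 𝔹.B₁₂) (n : N.N₁) :
    letI := 𝔹.algebra₁
    overlapEquiv₁ N (c ⊗ₜ[𝔹.B₁] n) = c • N.ι₁ n := by
  letI := 𝔹.algebra₁
  letI := N.module₁
  haveI := N.isScalarTower₁
  haveI := 𝔹.isLocalization₁
  haveI := N.isLocalizedModule₁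
  exact (IsLocalizedModule.isBaseChange (Submonoid.powers 𝔹.f) 𝔹.B₁₂ N.ι₁ₗ).equiv_tmul c n

theorem overlapEquiv₂_tmul (c : 𝔹.B₁₂) (n : N.N₂) :
    letI := 𝔹.algebra₂
    overlapEquiv₂ N (c ⊗ₜ[𝔹.B₂] n) = c • N.ι₂ n := by
  letI := 𝔹.algebra₂
  letI := N.module₂
  haveI := N.isScalarTower₂
  haveI := 𝔹.isLocalization₂
  haveI := N.isLocalizedModule₂
  exact (IsLocalizedModule.isBaseChange (Submonoid.powers 𝔹.g) 𝔹.B₁₂ N.ι₂ₗ).equiv_tmul c n

/-- `N₁₂` is finitely generated over `B₁₂` if `N₁` is over `B₁`. -/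
theorem finite_overlap [Module.Finite 𝔹.B₁ N.N₁] : Module.Finite 𝔹.B₁₂ N.N₁₂ :=
  letI := 𝔹.algebra₁
  Module.Finite.equiv (overlapEquiv₁ N)

/-- `N₁₂` is projective over `B₁₂` if `N₁` is over `B₁`. -/
theorem projective_overlap [Module.Projective 𝔹.B₁ N.N₁] : Module.Projective 𝔹.B₁₂ N.N₁₂ :=
  letI := 𝔹.algebra₁
  Module.Projective.of_equiv (overlapEquiv₁ N)

/-- `N₁₂` is invertible over `B₁₂` if `N₁` is over `B₁`. -/
theorem invertible_overlap [Module.Invertible 𝔹.B₁ N.N₁] : Module.Invertible 𝔹.B₁₂ N.N₁₂ :=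
  letI := 𝔹.algebra₁
  Module.Invertible.congr (overlapEquiv₁ N)

/-- `N₁₂` is projective over the base `R` as soon as `B₁₂` is and `N₁` is finitely generated
projective over `B₁`. -/
theorem projective_overlap_base [Module.Projective R 𝔹.B₁₂] [Module.Finite 𝔹.B₁ N.N₁]
    [Module.Projective 𝔹.B₁ N.N₁] : Module.Projective R N.N₁₂ :=
  haveI := finite_overlap N
  haveI := projective_overlap N
  projective_of_tower R 𝔹.B₁₂ N.N₁₂

/-- For a line bundle, `N₁₂` is invertible over `B₁₂`. -/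
theorem lb_invertible_overlap {N : GluedModule 𝔹} (hN : N.IsLineBundle) :
    Module.Invertible 𝔹.B₁₂ N.N₁₂ :=
  haveI := hN.inv₁
  Coh.invertible_overlap N

/-- For a line bundle over a two-chart with `B₁₂` projective over the base, `N₁₂` is projective
over the base. -/
theorem lb_projective_overlap_base {N : GluedModule 𝔹} (hN : N.IsLineBundle)
    [Module.Projective R 𝔹.B₁₂] : Module.Projective R N.N₁₂ :=
  haveI := hN.inv₁
  Coh.projective_overlap_base N

/-- The chart-1 module of a line bundle is a polynomial summand (`f ↔ X`). -/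
theorem lb_polySummandShape₁ {N : GluedModule 𝔹} (hN : N.IsLineBundle)
    (h₁ : IsPolyFree R 𝔹.f) : PolySummandShape R 𝔹.f N.N₁ :=
  haveI := hN.inv₁
  h₁.polySummandShape

/-- The chart-2 module of a line bundle is a polynomial summand (`g ↔ X`). -/
theorem lb_polySummandShape₂ {N : GluedModule 𝔹} (hN : N.IsLineBundle)
    (h₂ : IsPolyFree R 𝔹.g) : PolySummandShape R 𝔹.g N.N₂ :=
  haveI := hN.inv₂
  h₂.polySummandShape

/-- Multiplication by `g` on `N₂`, as an `R`-linear map. -/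
def gMul : N.N₂ →ₗ[R] N.N₂ where
  toFun x := 𝔹.g • x
  map_add' x y := smul_add _ _ _
  map_smul' r x := by
    rw [RingHom.id_apply, ← algebraMap_smul 𝔹.B₂ r x, ← algebraMap_smul 𝔹.B₂ r (𝔹.g • x),
      smul_smul, smul_smul, mul_comm]

/-- Multiplication by `f` on `N₁`, as an `R`-linear map. -/
def fMul : N.N₁ →ₗ[R] N.N₁ where
  toFun x := 𝔹.f • x
  map_add' x y := smul_add _ _ _
  map_smul' r x := by
    rw [RingHom.id_apply, ← algebraMap_smul 𝔹.B₁ r x, ← algebraMap_smul 𝔹.B₁ r (𝔹.f • x),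
      smul_smul, smul_smul, mul_comm]

@[simp] theorem gMul_apply (x : N.N₂) : gMul N x = 𝔹.g • x := rfl

@[simp] theorem fMul_apply (x : N.N₁) : fMul N x = 𝔹.f • x := rfl

/-- `g` acts injectively on the chart-2 module of a line bundle. -/
theorem lb_gMul_injective {N : GluedModule 𝔹} (hN : N.IsLineBundle)
    (h₂ : IsPolyFree R 𝔹.g) : Function.Injective (gMul N) :=
  (lb_polySummandShape₂ hN h₂).smul_injective

/-- `f` acts injectively on the chart-1 module of a line bundle. -/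
theorem lb_fMul_injective {N : GluedModule 𝔹} (hN : N.IsLineBundle)
    (h₁ : IsPolyFree R 𝔹.f) : Function.Injective (fMul N) :=
  (lb_polySummandShape₁ hN h₁).smul_injective

/-- `N₂ / g N₂` is a finitely generated `R`-module, for a line bundle. -/
theorem lb_finite_quot_g {N : GluedModule 𝔹} (hN : N.IsLineBundle)
    (h₂ : IsPolyFree R 𝔹.g) : Module.Finite R (N.N₂ ⧸ LinearMap.range (gMul N)) :=
  (lb_polySummandShape₂ hN h₂).quotient_finite (gMul N) (fun _ => rfl)

/-- `N₂ / g N₂` is a projective `R`-module, for a line bundle. -/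
theorem lb_projective_quot_g {N : GluedModule 𝔹} (hN : N.IsLineBundle)
    (h₂ : IsPolyFree R 𝔹.g) : Module.Projective R (N.N₂ ⧸ LinearMap.range (gMul N)) :=
  (lb_polySummandShape₂ hN h₂).quotient_projective (gMul N) (fun _ => rfl)

/-- `N₁ / f N₁` is a finitely generated `R`-module, for a line bundle. -/
theorem lb_finite_quot_f {N : GluedModule 𝔹} (hN : N.IsLineBundle)
    (h₁ : IsPolyFree R 𝔹.f) : Module.Finite R (N.N₁ ⧸ LinearMap.range (fMul N)) :=
  (lb_polySummandShape₁ hN h₁).quotient_finite (fMul N) (fun _ => rfl)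

/-- `N₁ / f N₁` is a projective `R`-module, for a line bundle. -/
theorem lb_projective_quot_f {N : GluedModule 𝔹} (hN : N.IsLineBundle)
    (h₁ : IsPolyFree R 𝔹.f) : Module.Projective R (N.N₁ ⧸ LinearMap.range (fMul N)) :=
  (lb_polySummandShape₁ hN h₁).quotient_projective (fMul N) (fun _ => rfl)

end Fermat.Agent.S25.Lib.Coh
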