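/-
S25 LIB, topic Coh (helper4030): cohomology facts for line bundles on the FROZEN curve chart
`𝒞.chart R` (`Defs.lean`; `B_i = R ⊗[k] A_i`), `R` ANY `k`-algebra, `k` algebraically closed.

Main statements (names requested by BOARD_S25_LIB for the DEG leaves, plus the rest of (CB1)/(CB2)):
* `projective_pieces` : `N₁`, `N₂`, `N₁₂` are projective over `R` (any field `k`);
* `h1_finite`         : (F) `H¹` is a finitely generated `R`-module;
* `h0_finite`, `h0_projective`, `h0BaseChangeEquiv` : (CB1) if `H¹ = 0` then `H⁰` is finitely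
  generated projective and commutes with every base change;
* `d_surjective_of_fibres` : (CB1) if `H¹` vanishes on the fibres at all primes then `H¹ = 0`;
* `isOpen_setOf_fibre_d_surjective` : (CB2) the locus of vanishing fibre `H¹` is open;
* `gmul_regular`      : `g` acts injectively on `N₂`, and `N₂ ⧸ g N₂` is finite projective over `R`
  (`fmul_regular` for `f` on `N₁`);
* `isPolySummand₁/₂`  : `N₁` (`N₂`) is, compatibly with `f ↔ X` (`g ↔ X`), an `R`-linear direct
  summand of some `Fin m → R[X]`; `chart_isPolyFree₁/₂`, `chart_free₁/₂/₁₂`.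

Sources ported into `Lib/Coh/*4030.lean`: helper5050 (`A0Free4030`, polynomial bases), helper1428
(`PolySummand4030`, `Split4030`, `Nakayama4030`, `Coker4030`, `H1Finite4030`, `H0Finite4030`), and
helper4030 (`PolyStruct4030`, `LBStruct4030`).
-/
import Fermat.Agent.S25.Defs
import Fermat.Agent.S25.Lib.Coh.A0Free4030
import Fermat.Agent.S25.Lib.Coh.H0Finite4030
import Fermat.Agent.S25.Lib.Coh.LBStruct4030

set_option autoImplicit false

universe u

namespace Fermat.Agent.S25.Lib.Coh

open Fermat.Agent.S25 Polynomial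
open scoped TensorProduct

section anyField

variable {k : Type u} [Field k] (𝒞 : CurveData k) (R : Type u) [CommRing R] [Algebra k R]

/-- `B₁₂ = R ⊗[k] A₁₂` is a free `R`-module. -/
theorem chart_free₁₂ : Module.Free R (𝒞.chart R).B₁₂ :=
  inferInstanceAs (Module.Free R (R ⊗[k] 𝒞.A₁₂))

/-- `B₁ = R ⊗[k] A₁` is a free `R`-module. -/
theorem chart_free₁ : Module.Free R (𝒞.chart R).B₁ :=
  inferInstanceAs (Module.Free R (R ⊗[k] 𝒞.A₁))

/-- `B₂ = R ⊗[k] A₂` is a free `R`-module. -/
theorem chart_free₂ : Module.Free R (𝒞.chart R).B₂ :=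
  inferInstanceAs (Module.Free R (R ⊗[k] 𝒞.A₂))

variable {R}

/-- The three chart modules of a line bundle are projective over the base `R`. -/
theorem projective_pieces (L : GluedModule (𝒞.chart R)) (hL : L.IsLineBundle) :
    Module.Projective R L.N₁ ∧ Module.Projective R L.N₂ ∧ Module.Projective R L.N₁₂ := by
  have h1 := chart_free₁ 𝒞 R
  have h2 := chart_free₂ 𝒞 R
  have h12 := chart_free₁₂ 𝒞 R
  have i1 := hL.inv₁
  have i2 := hL.inv₂
  exact ⟨projective_of_tower R (𝒞.chart R).B₁ L.N₁, projective_of_tower R (𝒞.chart R).B₂ L.N₂,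
    lb_projective_overlap_base hL⟩

end anyField

variable {k : Type u} [Field k] [IsAlgClosed k] (𝒞 : CurveData k)
  (R : Type u) [CommRing R] [Algebra k R]

/-- `B₁ = R ⊗[k] A₁` is free of finite rank over `R[f]`. -/
theorem chart_isPolyFree₁ : IsPolyFree R (𝒞.chart R).f := by
  obtain ⟨n, b, -, -, hb⟩ := H5050.exists_polyBasis₁ 𝒞
  refine ⟨n, H5050.polyMap k R 𝒞.f b, hb R, fun c => ?_⟩
  exact H5050.polyMap_X_mul k R 𝒞.f b c

/-- `B₂ = R ⊗[k] A₂` is free of finite rank over `R[g]`. -/
theorem chart_isPolyFree₂ : IsPolyFree R (𝒞.chart R).g := by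
  obtain ⟨n, b, -, -, hb⟩ := H5050.exists_polyBasis₂ 𝒞
  refine ⟨n, H5050.polyMap k R 𝒞.g b, hb R, fun c => ?_⟩
  exact H5050.polyMap_X_mul k R 𝒞.g b c

variable {R}

/-- The chart-1 module of a line bundle on the curve chart is a polynomial summand. -/
theorem isPolySummand₁ (L : GluedModule (𝒞.chart R)) (hL : L.IsLineBundle) :
    A2x1428.IsPolySummand R (𝒞.chart R).f L.N₁ :=
  lb_polySummandShape₁ hL (chart_isPolyFree₁ 𝒞 R)

/-- The chart-2 module of a line bundle on the curve chart is a polynomial summand. -/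
theorem isPolySummand₂ (L : GluedModule (𝒞.chart R)) (hL : L.IsLineBundle) :
    A2x1428.IsPolySummand R (𝒞.chart R).g L.N₂ :=
  lb_polySummandShape₂ hL (chart_isPolyFree₂ 𝒞 R)

/-- **(F)**: `H¹` of a line bundle on the family is a finitely generated `R`-module. -/
theorem h1_finite (L : GluedModule (𝒞.chart R)) (hL : L.IsLineBundle) :
    Module.Finite R L.H1 :=
  A2x1428.h1_finite_of_isPolySummand L (isPolySummand₁ 𝒞 L hL)

/-- `H¹ = 0` means that the Čech differential is surjective. -/
theorem d_surjective_of_subsingleton_H1 {R : Type u} [CommRing R] {𝔹 : TwoChart R}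
    (M : GluedModule 𝔹) (h1 : Subsingleton M.H1) : Function.Surjective M.d :=
  LinearMap.range_eq_top.mp (Submodule.Quotient.subsingleton_iff.mp h1)

/-- **(CB1)**, finiteness: if `H¹ = 0` then `H⁰` is a finitely generated `R`-module. -/
theorem h0_finite (M : GluedModule (𝒞.chart R)) (hM : M.IsLineBundle) (h1 : Subsingleton M.H1) :
    Module.Finite R M.H0 :=
  haveI := (projective_pieces 𝒞 M hM).2.2
  A2x1428.h0_finite M (isPolySummand₁ 𝒞 M hM) (isPolySummand₂ 𝒞 M hM)
    (d_surjective_of_subsingleton_H1 M h1)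

/-- **(CB1)**, projectivity: if `H¹ = 0` then `H⁰` is a projective `R`-module. -/
theorem h0_projective (M : GluedModule (𝒞.chart R)) (hM : M.IsLineBundle)
    (h1 : Subsingleton M.H1) : Module.Projective R M.H0 :=
  haveI := (projective_pieces 𝒞 M hM).2.2
  A2x1428.h0_projective M (isPolySummand₁ 𝒞 M hM) (isPolySummand₂ 𝒞 M hM)
    (d_surjective_of_subsingleton_H1 M h1)

omit [IsAlgClosed k] in
/-- **(CB1)**, base change: if `H¹ = 0`, the formation of `H⁰` commutes with every base
change. -/
noncomputable def h0BaseChangeEquiv (M : GluedModule (𝒞.chart R)) (hM : M.IsLineBundle)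
    (h1 : Subsingleton M.H1) (S : Type*) [CommRing S] [Algebra R S] :
    S ⊗[R] M.H0 ≃ₗ[S] LinearMap.ker (M.d.baseChange S) :=
  haveI := (projective_pieces 𝒞 M hM).2.2
  A2x1428.h0BaseChangeEquiv M (d_surjective_of_subsingleton_H1 M h1) S

/-- **(CB1)**, vanishing: if the fibres of the Čech differential at all primes are surjective
(`H¹` of all fibres vanishes) then `H¹ = 0`. -/
theorem d_surjective_of_fibres (M : GluedModule (𝒞.chart R)) (hM : M.IsLineBundle)
    (h : ∀ p : PrimeSpectrum R, Function.Surjective (M.d.baseChange p.asIdeal.ResidueField)) :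
    Function.Surjective M.d :=
  A2x1428.d_surjective_of_fibres M (isPolySummand₁ 𝒞 M hM) h

/-- **(CB2)**: the locus of primes where `H¹` of the fibre vanishes is open. -/
theorem isOpen_setOf_fibre_d_surjective (M : GluedModule (𝒞.chart R)) (hM : M.IsLineBundle) :
    IsOpen {p : PrimeSpectrum R |
      Function.Surjective (M.d.baseChange p.asIdeal.ResidueField)} :=
  A2x1428.isOpen_setOf_fibre_d_surjective M (isPolySummand₁ 𝒞 M hM)

/-- `g` is a non-zero-divisor on `N₂` and `N₂ ⧸ g N₂` is finite projective over `R`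
(`gMul L : L.N₂ →ₗ[R] L.N₂` is multiplication by `g`, `LBStruct4030`). -/
theorem gmul_regular (L : GluedModule (𝒞.chart R)) (hL : L.IsLineBundle) :
    Function.Injective (gMul L) ∧ Module.Finite R (L.N₂ ⧸ LinearMap.range (gMul L)) ∧
      Module.Projective R (L.N₂ ⧸ LinearMap.range (gMul L)) :=
  ⟨lb_gMul_injective hL (chart_isPolyFree₂ 𝒞 R), lb_finite_quot_g hL (chart_isPolyFree₂ 𝒞 R),
    lb_projective_quot_g hL (chart_isPolyFree₂ 𝒞 R)⟩

/-- `f` is a non-zero-divisor on `N₁` and `N₁ ⧸ f N₁` is finite projective over `R`. -/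
theorem fmul_regular (L : GluedModule (𝒞.chart R)) (hL : L.IsLineBundle) :
    Function.Injective (fMul L) ∧ Module.Finite R (L.N₁ ⧸ LinearMap.range (fMul L)) ∧
      Module.Projective R (L.N₁ ⧸ LinearMap.range (fMul L)) :=
  ⟨lb_fMul_injective hL (chart_isPolyFree₁ 𝒞 R), lb_finite_quot_f hL (chart_isPolyFree₁ 𝒞 R),
    lb_projective_quot_f hL (chart_isPolyFree₁ 𝒞 R)⟩

end Fermat.Agent.S25.Lib.Coh
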