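/-
S25 LIB, topic Coh (helper6070): RELATIONAL cohomology and base change, complements — built ON TOP
of the published `Lib/Coh/Chart4030.lean` ((F), (CB1), (CB2) for ONE line bundle on the frozen chart
`𝒞.chart R`, fibres written as `L.d.baseChange κ`) and `Lib/BCRel/Coh2411.lean` (`tensorEquiv*` for
`BaseChangeData`: `H¹` commutes with base change, `H⁰` with FLAT base change).  Nothing published
is re-declared; no name of `Lib/Coh/*4030`, `Lib/Coh/*1391` (`IsBC`, `Fibres`), `Lib/BCRel`,
`Lib/SemiBC` is reused.  Namespace `Fermat.Agent.S25.Lib.Coh`.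

A. Any glued module `N` over any two-chart (`section general`):
* `h1Locus N : Set (PrimeSpectrum R)`  the vanishing locus of `H¹` (complement of its support) as
  an OBJECT; `h1Locus_eq_univ_iff` (`= univ ↔ H¹ = 0`), `h1Locus_of_le` (stable under
  generalisation), `subsingleton_h1_of_forall_maximal` (test at CLOSED points), and for `H¹` finite:
  `isOpen_h1Locus`, `mem_h1Locus_iff` (`κ(p) ⊗ H¹ = 0`), `mem_h1Locus_iff_d_surjective`
  (`N.d.baseChange κ(p)` surjective: the set of `Lib.Coh.isOpen_setOf_fibre_d_surjective`),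
  `mem_h1Locus_iff_field` (any field-valued point with kernel `p`).
* `support_baseChange` (Mathlib-only): `Supp (R' ⊗[R] H) = comap ⁻¹' Supp H` for `H` finite.

B. Cocartesian base change `D : BaseChangeData Ψ N N'`, `hΨ : BCRel.IsCocart Ψ` (`section cocart`):
* `subsingleton_H1_of_baseChangeData`  `H¹(N) = 0 → H¹(N') = 0`;
* `h1Locus_baseChangeData`            `h1Locus N' = comap ⁻¹' h1Locus N` (`H¹(N)` finite);
* `tensorEquivH0OfSurjective hΨ D hd : R' ⊗[R] N.H0 ≃ₗ[R'] N'.H0` for `N.d` surjective and `N.N₁₂`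
  projective — (CB1) for NON-flat `R'` as a DEFINITION in the style of `BCRel.tensorEquivH0` (flat
  case) — with `tensorEquivH0OfSurjective_tmul` (`r' ⊗ x ↦ r' • BCRel.jH0 D x`), `_coe`.

C. Line bundles on the frozen chart, `φ : R →ₐ[k] R'`, `h : IsBC (𝒞.chartHom φ) L L'`
   (`section chart`; NO `Algebra R R'` instance needed unless stated):
* `isOpen_h1Locus_chart`, `mem_h1Locus_iff_chart`;
* `subsingleton_h1_of_isBC`            `H¹(L) = 0 → H¹(L') = 0` (any glued modules);
* `h1Locus_of_isBC`                    (CB2) `h1Locus L' = comap φ ⁻¹' h1Locus L`;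
* `subsingleton_h1_iff_forall_of_isBC`, `subsingleton_h1_iff_of_isBC`
                                       `H¹(L') = 0 ↔ Spec R' → Spec R` lands in `h1Locus L`;
* `subsingleton_h1_iff_of_isBC_field`  field point `φ : R → κ`: `H¹(L') = 0 ↔ ker φ ∈ h1Locus L`;
* `subsingleton_h1_of_fibres`          Nakayama: `H¹(L) = 0` as soon as over every CLOSED point of
                                       `Spec R` ONE field-valued fibre has `H¹ = 0`;
* `exists_h1_equiv`, `exists_h0_equiv`, `exists_h0_equiv_of_flat`  the comparison isomorphisms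
  `R' ⊗[R] H^i(L) ≃ₗ[R'] H^i(L')` with their formulas on generators, for ANY instance
  `[Algebra R R']` with `hφ : ∀ r, φ r = algebraMap R R' r` (`exists_h0_equiv`: `L` a line bundle with
  `H¹(L) = 0`, `R'` arbitrary);
* `finrank_h0_of_isBC_field`           `dim_κ H⁰(L') = rankAtStalk H⁰(L) (ker φ)` when `H¹(L) = 0`.
-/
import Fermat.Agent.S25.Lib.Coh.Chart4030
import Fermat.Agent.S25.Lib.BCRel.Coh2411

set_option autoImplicit false
set_option linter.style.haveILetI false

universe u

namespace Fermat.Agent.S25.Lib.Coh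

open scoped TensorProduct

open Fermat.Agent.S25 GluedModule

/-! ### Support of a base change (Mathlib only) -/

section support

variable {R : Type u} [CommRing R] (H : Type u) [AddCommGroup H] [Module R H]
  [Module.Finite R H] (R' : Type u) [CommRing R'] [Algebra R R']

/-- A prime `q` of `R'` is outside the support of `R' ⊗[R] H` iff its image in `Spec R` is outside
the support of the finite module `H`. -/
theorem comap_notMem_support_iff (q : PrimeSpectrum R') :
    PrimeSpectrum.comap (algebraMap R R') q ∉ Module.support R H ↔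
      q ∉ Module.support R' (R' ⊗[R] H) := by
  have hker : RingHom.ker (algebraMap R q.asIdeal.ResidueField) =
      (PrimeSpectrum.comap (algebraMap R R') q).asIdeal := by
    ext x
    rw [RingHom.mem_ker, IsScalarTower.algebraMap_apply R R' q.asIdeal.ResidueField,
      Ideal.algebraMap_residueField_eq_zero]
    rfl
  rw [← A2x1428.subsingleton_tensor_field_iff_notMem_support H q.asIdeal.ResidueField _ hker,
    Module.mem_support_iff_nontrivial_residueField_tensorProduct, not_nontrivial_iff_subsingleton]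
  exact (TensorProduct.AlgebraTensorModule.cancelBaseChange R R' q.asIdeal.ResidueField
    q.asIdeal.ResidueField H).toEquiv.subsingleton_congr.symm

/-- The support of a base change of a finite module is the preimage of the support. -/
theorem support_baseChange :
    Module.support R' (R' ⊗[R] H) =
      PrimeSpectrum.comap (algebraMap R R') ⁻¹' Module.support R H := by
  ext q
  rw [Set.mem_preimage, ← not_iff_not]
  exact (comap_notMem_support_iff H R' q).symm

end support

/-! ### The vanishing locus of `H¹` -/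

section general

variable {R : Type u} [CommRing R] {𝔹 : TwoChart R} (N : GluedModule 𝔹)

/-- (CB2) The locus of `Spec R` over which `H¹` vanishes: the complement of the support of
`H¹`.  It is open as soon as `H¹` is a finite `R`-module (`isOpen_h1Locus`), in particular for
line bundles over `𝒞.chart R` (`isOpen_h1Locus_chart`). -/
def h1Locus : Set (PrimeSpectrum R) := (Module.support R N.H1)ᶜ

theorem mem_h1Locus_iff_notMem_support (p : PrimeSpectrum R) :
    p ∈ h1Locus N ↔ p ∉ Module.support R N.H1 := Iff.rfl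

theorem h1Locus_eq_univ_iff : h1Locus N = Set.univ ↔ Subsingleton N.H1 := by
  rw [h1Locus, Set.compl_univ_iff, Module.support_eq_empty_iff]

theorem h1Locus_eq_univ (h : Subsingleton N.H1) : h1Locus N = Set.univ :=
  (h1Locus_eq_univ_iff N).2 h

/-- The vanishing locus of `H¹` is stable under generalisation (no finiteness needed). -/
theorem h1Locus_of_le {p q : PrimeSpectrum R} (hpq : p ≤ q) (hq : q ∈ h1Locus N) :
    p ∈ h1Locus N := fun hp => hq (Module.mem_support_mono hpq hp)

/-- `H¹ = 0` can be tested at the closed points of `Spec R` (no finiteness needed). -/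
theorem subsingleton_h1_of_forall_maximal
    (h : ∀ (𝔪 : Ideal R) (h𝔪 : 𝔪.IsMaximal), (⟨𝔪, h𝔪.isPrime⟩ : PrimeSpectrum R) ∈ h1Locus N) :
    Subsingleton N.H1 := by
  rw [← h1Locus_eq_univ_iff, Set.eq_univ_iff_forall]
  intro p
  obtain ⟨𝔪, h𝔪, hle⟩ := Ideal.exists_le_maximal p.asIdeal p.2.ne_top
  exact h1Locus_of_le N (q := ⟨𝔪, h𝔪.isPrime⟩) hle (h 𝔪 h𝔪)

theorem isOpen_h1Locus [Module.Finite R N.H1] : IsOpen (h1Locus N) :=
  Module.isClosed_support.isOpen_compl

/-- For `H¹` finite: a point lies in the vanishing locus iff the fibre of `H¹` there is zero. -/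
theorem mem_h1Locus_iff [Module.Finite R N.H1] (p : PrimeSpectrum R) :
    p ∈ h1Locus N ↔ Subsingleton (p.asIdeal.ResidueField ⊗[R] N.H1) := by
  rw [h1Locus, Set.mem_compl_iff, Module.mem_support_iff_nontrivial_residueField_tensorProduct,
    not_nontrivial_iff_subsingleton]

/-- For `H¹` finite: a point lies in the vanishing locus iff the fibre of the Čech differential
there is surjective (the set of `Lib.Coh.isOpen_setOf_fibre_d_surjective`). -/
theorem mem_h1Locus_iff_d_surjective [Module.Finite R N.H1] (p : PrimeSpectrum R) :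
    p ∈ h1Locus N ↔ Function.Surjective (N.d.baseChange p.asIdeal.ResidueField) := by
  rw [mem_h1Locus_iff, A2x1428.baseChange_surjective_iff_subsingleton]

/-- For `H¹` finite and a field-valued point `R → K` with kernel `p`: the point lies in the
vanishing locus iff the fibre of the Čech differential over `K` is surjective. -/
theorem mem_h1Locus_iff_field [Module.Finite R N.H1] (K : Type u) [Field K] [Algebra R K]
    (p : PrimeSpectrum R) (hp : RingHom.ker (algebraMap R K) = p.asIdeal) :
    p ∈ h1Locus N ↔ Function.Surjective (N.d.baseChange K) := by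
  rw [mem_h1Locus_iff_d_surjective, A2x1428.baseChange_field_surjective_iff N.d K p hp]

end general

/-! ### Cocartesian base change of glued modules -/

section cocart

variable {R R' : Type u} [CommRing R] [CommRing R'] [Algebra R R']
  {𝔹 : TwoChart R} {𝔹' : TwoChart R'} {Ψ : TwoChart.Hom (algebraMap R R') 𝔹 𝔹'}
  {N : GluedModule 𝔹} {N' : GluedModule 𝔹'}

/-- Vanishing of `H¹` passes to every cocartesian base change. -/
theorem subsingleton_H1_of_baseChangeData (hΨ : BCRel.IsCocart Ψ) (D : BaseChangeData Ψ N N')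
    (h1 : Subsingleton N.H1) : Subsingleton N'.H1 :=
  (BCRel.tensorEquivH1 hΨ D).symm.toEquiv.subsingleton

/-- The vanishing locus of `H¹` commutes with cocartesian base change (for `H¹(N)` finite). -/
theorem h1Locus_baseChangeData [Module.Finite R N.H1] (hΨ : BCRel.IsCocart Ψ)
    (D : BaseChangeData Ψ N N') :
    h1Locus N' = PrimeSpectrum.comap (algebraMap R R') ⁻¹' h1Locus N := by
  rw [h1Locus, h1Locus, ← LinearEquiv.support_eq (BCRel.tensorEquivH1 hΨ D),
    support_baseChange N.H1 R', Set.preimage_compl]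

variable [Module.Projective R N.N₁₂]

/-- If `N.d` is surjective (`H¹(N) = 0`) and `N.N₁₂` is projective, the canonical map
`R' ⊗[R] H⁰(N) → N'₁ × N'₂` is injective for EVERY cocartesian base change. -/
theorem h0Map_injective_of_surjective (hΨ : BCRel.IsCocart Ψ) (D : BaseChangeData Ψ N N')
    (hd : Function.Surjective N.d) : Function.Injective (BCRel.h0Map hΨ D) :=
  (BCRel.tensorEquivProd hΨ D).injective.comp
    (A2x1428.baseChange_subtype_ker_injective N.d R' hd)

/-- If `N.d` is surjective and `N.N₁₂` is projective, every element of `H⁰(N')` comes from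
`R' ⊗[R] H⁰(N)`. -/
theorem h0Map_surjOn_of_surjective (hΨ : BCRel.IsCocart Ψ) (D : BaseChangeData Ψ N N')
    (hd : Function.Surjective N.d) (y : N'.N₁ × N'.N₂) (hy : y ∈ N'.H0) :
    ∃ t, BCRel.h0Map hΨ D t = y := by
  have hz : (BCRel.tensorEquivProd hΨ D).symm y ∈ LinearMap.ker (N.d.baseChange R') := by
    rw [LinearMap.mem_ker]
    apply (BCRel.tensorEquiv₁₂ hΨ D).injective
    rw [BCRel.tensorEquiv₁₂_baseChange_d, LinearEquiv.apply_symm_apply, map_zero]
    exact hy
  rw [A2x1428.ker_baseChange_eq_range N.d R' hd] at hz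
  obtain ⟨t, ht⟩ := hz
  refine ⟨t, ?_⟩
  change BCRel.tensorEquivProd hΨ D ((LinearMap.ker N.d).subtype.baseChange R' t) = y
  rw [ht, LinearEquiv.apply_symm_apply]

/-- **(CB1), relational form, ANY base ring `R'`**: if `N.d` is surjective (`H¹(N) = 0`) and
`N.N₁₂` is `R`-projective, then `R' ⊗[R] H⁰(N) ≃ H⁰(N')` for every cocartesian base change `N'`
of `N`.  (Flat `R'` without hypotheses on `N`: `BCRel.tensorEquivH0`.) -/
noncomputable def tensorEquivH0OfSurjective (hΨ : BCRel.IsCocart Ψ) (D : BaseChangeData Ψ N N')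
    (hd : Function.Surjective N.d) : R' ⊗[R] N.H0 ≃ₗ[R'] N'.H0 :=
  LinearEquiv.ofBijective ((BCRel.h0Map hΨ D).codRestrict N'.H0 (BCRel.h0Map_mem hΨ D))
    ⟨fun _ _ hxy => h0Map_injective_of_surjective hΨ D hd (congrArg Subtype.val hxy),
     fun y => by
      obtain ⟨t, ht⟩ := h0Map_surjOn_of_surjective hΨ D hd y.1 y.2
      exact ⟨t, Subtype.ext ht⟩⟩

@[simp] theorem tensorEquivH0OfSurjective_tmul (hΨ : BCRel.IsCocart Ψ)
    (D : BaseChangeData Ψ N N') (hd : Function.Surjective N.d) (r' : R') (x : N.H0) :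
    tensorEquivH0OfSurjective hΨ D hd (r' ⊗ₜ x) = r' • BCRel.jH0 D x := by
  apply Subtype.ext
  change BCRel.h0Map hΨ D (r' ⊗ₜ x) = _
  rw [BCRel.h0Map_tmul]
  rfl

theorem tensorEquivH0OfSurjective_coe (hΨ : BCRel.IsCocart Ψ)
    (D : BaseChangeData Ψ N N') (hd : Function.Surjective N.d) (t : R' ⊗[R] N.H0) :
    ((tensorEquivH0OfSurjective hΨ D hd t : N'.H0) : N'.N₁ × N'.N₂) = BCRel.h0Map hΨ D t := rfl

end cocart

/-! ### Line bundles on the frozen chart `𝒞.chart R` -/

section chart

variable {k : Type u} [Field k] [IsAlgClosed k] (𝒞 : CurveData k)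
  {R R' : Type u} [CommRing R] [Algebra k R] [CommRing R'] [Algebra k R']

/-- **(CB2)** for line bundles on `𝒞.chart R`: the vanishing locus of `H¹` is open. -/
theorem isOpen_h1Locus_chart (L : GluedModule (𝒞.chart R)) (hL : L.IsLineBundle) :
    IsOpen (h1Locus L) := by
  haveI := h1_finite 𝒞 L hL
  exact isOpen_h1Locus L

/-- Line bundles on `𝒞.chart R`: a point lies in the vanishing locus of `H¹` iff the fibre of
`H¹` at that point is zero. -/
theorem mem_h1Locus_iff_chart (L : GluedModule (𝒞.chart R)) (hL : L.IsLineBundle)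
    (p : PrimeSpectrum R) :
    p ∈ h1Locus L ↔ Subsingleton (p.asIdeal.ResidueField ⊗[R] L.H1) := by
  haveI := h1_finite 𝒞 L hL
  exact mem_h1Locus_iff L p

variable (φ : R →ₐ[k] R') {L : GluedModule (𝒞.chart R)} {L' : GluedModule (𝒞.chart R')}

omit [IsAlgClosed k] in
/-- Vanishing of `H¹` passes to every base change (no hypothesis on `L`). -/
theorem subsingleton_h1_of_isBC (h : IsBC (𝒞.chartHom φ) L L') (h1 : Subsingleton L.H1) :
    Subsingleton L'.H1 := by
  letI : Algebra R R' := (φ : R →+* R').toAlgebra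
  obtain ⟨D⟩ := h
  exact subsingleton_H1_of_baseChangeData (Ψ := 𝒞.chartHom φ) (BCRel.chartHom_isCocart 𝒞 φ) D h1

/-- **(CB2), relational form**: for a line bundle `L` on `𝒞.chart R` and ANY base change `L'` of
`L` along `φ : R → R'`, the vanishing locus of `H¹(L')` is the preimage of the vanishing locus of
`H¹(L)` under `Spec R' → Spec R`. -/
theorem h1Locus_of_isBC (hL : L.IsLineBundle) (h : IsBC (𝒞.chartHom φ) L L') :
    h1Locus L' = PrimeSpectrum.comap (φ : R →+* R') ⁻¹' h1Locus L := by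
  letI : Algebra R R' := (φ : R →+* R').toAlgebra
  haveI := h1_finite 𝒞 L hL
  obtain ⟨D⟩ := h
  exact h1Locus_baseChangeData (Ψ := 𝒞.chartHom φ) (BCRel.chartHom_isCocart 𝒞 φ) D

/-- Line bundle `L`, base change `L'` along `φ : R → R'`: `H¹(L') = 0` iff every point of
`Spec R'` maps into the vanishing locus of `H¹(L)`. -/
theorem subsingleton_h1_iff_forall_of_isBC (hL : L.IsLineBundle)
    (h : IsBC (𝒞.chartHom φ) L L') :
    Subsingleton L'.H1 ↔
      ∀ q : PrimeSpectrum R', PrimeSpectrum.comap (φ : R →+* R') q ∈ h1Locus L := by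
  rw [← h1Locus_eq_univ_iff, h1Locus_of_isBC 𝒞 φ hL h, Set.eq_univ_iff_forall]
  rfl

/-- Line bundle `L`, base change `L'` along `φ : R → R'`: `H¹(L') = 0` iff the image of
`Spec R' → Spec R` lies in the vanishing locus of `H¹(L)`. -/
theorem subsingleton_h1_iff_of_isBC (hL : L.IsLineBundle) (h : IsBC (𝒞.chartHom φ) L L') :
    Subsingleton L'.H1 ↔ Set.range (PrimeSpectrum.comap (φ : R →+* R')) ⊆ h1Locus L := by
  rw [subsingleton_h1_iff_forall_of_isBC 𝒞 φ hL h, Set.range_subset_iff]

/-- Line bundle `L`, fibre `L'` at a field-valued point `φ : R → κ`: `H¹(L') = 0` iff the point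
`ker φ` of `Spec R` lies in the vanishing locus of `H¹(L)`. -/
theorem subsingleton_h1_iff_of_isBC_field {κ : Type u} [Field κ] [Algebra k κ] (φ : R →ₐ[k] κ)
    {L' : GluedModule (𝒞.chart κ)} (hL : L.IsLineBundle) (h : IsBC (𝒞.chartHom φ) L L') :
    Subsingleton L'.H1 ↔
      (⟨RingHom.ker (φ : R →+* κ), RingHom.ker_isPrime _⟩ : PrimeSpectrum R) ∈ h1Locus L := by
  rw [subsingleton_h1_iff_forall_of_isBC 𝒞 φ hL h]
  have hpt : ∀ q : PrimeSpectrum κ, PrimeSpectrum.comap (φ : R →+* κ) q =
      ⟨RingHom.ker (φ : R →+* κ), RingHom.ker_isPrime _⟩ := by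
    intro q
    apply PrimeSpectrum.ext
    have hq : q.asIdeal = ⊥ := by
      rcases Ideal.eq_bot_or_top q.asIdeal with h0 | h0
      · exact h0
      · exact absurd h0 q.2.ne_top
    change Ideal.comap (φ : R →+* κ) q.asIdeal = RingHom.ker (φ : R →+* κ)
    rw [hq, RingHom.ker_eq_comap_bot]
  constructor
  · intro hall
    have := hall ⟨⊥, Ideal.isPrime_bot⟩
    rwa [hpt] at this
  · intro hmem q
    rw [hpt]
    exact hmem

/-- **Nakayama for `H¹`**: a line bundle `L` on `𝒞.chart R` has `H¹(L) = 0` as soon as over every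
closed point `𝔪` of `Spec R` there is ONE field-valued point `φ : R → κ` with `ker φ = 𝔪` and one
base change `L'` of `L` along `φ` with `H¹(L') = 0`. -/
theorem subsingleton_h1_of_fibres (hL : L.IsLineBundle)
    (h : ∀ 𝔪 : Ideal R, 𝔪.IsMaximal → ∃ (κ : Type u) (_ : Field κ) (_ : Algebra k κ)
      (φ : R →ₐ[k] κ) (L' : GluedModule (𝒞.chart κ)), RingHom.ker (φ : R →+* κ) = 𝔪 ∧
        IsBC (𝒞.chartHom φ) L L' ∧ Subsingleton L'.H1) :
    Subsingleton L.H1 := by
  refine subsingleton_h1_of_forall_maximal L fun 𝔪 h𝔪 => ?_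
  obtain ⟨κ, _, _, φ, L', hker, hbc, h1⟩ := h 𝔪 h𝔪
  have := (subsingleton_h1_iff_of_isBC_field 𝒞 φ hL hbc).1 h1
  have hpt : (⟨RingHom.ker (φ : R →+* κ), RingHom.ker_isPrime _⟩ : PrimeSpectrum R) =
      ⟨𝔪, h𝔪.isPrime⟩ := PrimeSpectrum.ext hker
  rwa [hpt] at this

omit [IsAlgClosed k] in
/-- **`H¹` commutes with base change** (no hypothesis on `L`), for any algebra instance inducing
`φ`: `R' ⊗[R] H¹(L) ≃ H¹(L')`, `c ⊗ [y] ↦ c • [D.j₁₂ y]`. -/
theorem exists_h1_equiv [Algebra R R'] (hφ : ∀ r, φ r = algebraMap R R' r)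
    (D : BaseChangeData (𝒞.chartHom φ) L L') :
    ∃ e : R' ⊗[R] L.H1 ≃ₗ[R'] L'.H1, ∀ (c : R') (y : L.N₁₂),
      e (c ⊗ₜ[R] (Submodule.Quotient.mk y : L.H1)) =
        c • (Submodule.Quotient.mk (D.j₁₂ y) : L'.H1) := by
  have hinst : ‹Algebra R R'› = (φ : R →+* R').toAlgebra :=
    Algebra.algebra_ext _ _ (fun r => (hφ r).symm)
  subst hinst
  letI : Algebra R R' := (φ : R →+* R').toAlgebra
  refine ⟨BCRel.tensorEquivH1 (Ψ := 𝒞.chartHom φ) (BCRel.chartHom_isCocart 𝒞 φ) D,
    fun c y => ?_⟩
  rw [BCRel.tensorEquivH1_tmul, BCRel.jH1_mk]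

omit [IsAlgClosed k] in
/-- **(CB1), relational form**: for a line bundle `L` on `𝒞.chart R` with `H¹(L) = 0`, `H⁰`
commutes with EVERY base change: `R' ⊗[R] H⁰(L) ≃ H⁰(L')`, `c ⊗ s ↦ c • (D.j₁ s.1, D.j₂ s.2)`. -/
theorem exists_h0_equiv [Algebra R R'] (hφ : ∀ r, φ r = algebraMap R R' r)
    (D : BaseChangeData (𝒞.chartHom φ) L L') (hL : L.IsLineBundle) (h1 : Subsingleton L.H1) :
    ∃ e : R' ⊗[R] L.H0 ≃ₗ[R'] L'.H0, ∀ (c : R') (s : L.H0),
      ((e (c ⊗ₜ[R] s) : L'.H0) : L'.N₁ × L'.N₂) =
        c • (D.j₁ (s : L.N₁ × L.N₂).1, D.j₂ (s : L.N₁ × L.N₂).2) := by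
  have hinst : ‹Algebra R R'› = (φ : R →+* R').toAlgebra :=
    Algebra.algebra_ext _ _ (fun r => (hφ r).symm)
  subst hinst
  letI : Algebra R R' := (φ : R →+* R').toAlgebra
  haveI := (projective_pieces 𝒞 L hL).2.2
  have hd := d_surjective_of_subsingleton_H1 L h1
  refine ⟨tensorEquivH0OfSurjective (Ψ := 𝒞.chartHom φ) (BCRel.chartHom_isCocart 𝒞 φ) D hd,
    fun c s => ?_⟩
  rw [tensorEquivH0OfSurjective_tmul]
  rfl

omit [IsAlgClosed k] in
/-- **Flat base change**: for `R'` flat over `R`, `H⁰` commutes with the base change (no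
hypothesis on `L`); `BCRel.tensorEquivH0` for any algebra instance inducing `φ`. -/
theorem exists_h0_equiv_of_flat [Algebra R R'] [Module.Flat R R']
    (hφ : ∀ r, φ r = algebraMap R R' r) (D : BaseChangeData (𝒞.chartHom φ) L L') :
    ∃ e : R' ⊗[R] L.H0 ≃ₗ[R'] L'.H0, ∀ (c : R') (s : L.H0),
      ((e (c ⊗ₜ[R] s) : L'.H0) : L'.N₁ × L'.N₂) =
        c • (D.j₁ (s : L.N₁ × L.N₂).1, D.j₂ (s : L.N₁ × L.N₂).2) := by
  have hinst : ‹Algebra R R'› = (φ : R →+* R').toAlgebra :=
    Algebra.algebra_ext _ _ (fun r => (hφ r).symm)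
  subst hinst
  letI : Algebra R R' := (φ : R →+* R').toAlgebra
  refine ⟨BCRel.tensorEquivH0 (Ψ := 𝒞.chartHom φ) (BCRel.chartHom_isCocart 𝒞 φ) D,
    fun c s => ?_⟩
  rw [BCRel.tensorEquivH0_tmul]
  rfl

/-- **(CB1), fibre dimension**: for a line bundle `L` on `𝒞.chart R` with `H¹(L) = 0` and the
fibre `L'` of `L` at a field-valued point `φ : R → κ`, the dimension of `H⁰(L')` is the rank of
the finite projective `R`-module `H⁰(L)` at the point `ker φ`. -/
theorem finrank_h0_of_isBC_field {κ : Type u} [Field κ] [Algebra k κ] (φ : R →ₐ[k] κ)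
    {L' : GluedModule (𝒞.chart κ)} (hL : L.IsLineBundle) (h1 : Subsingleton L.H1)
    (h : IsBC (𝒞.chartHom φ) L L') :
    Module.finrank κ L'.H0 = Module.rankAtStalk (R := R) L.H0
      ⟨RingHom.ker (φ : R →+* κ), RingHom.ker_isPrime _⟩ := by
  haveI := h0_finite 𝒞 L hL h1
  haveI := h0_projective 𝒞 L hL h1
  letI : Algebra R κ := (φ : R →+* κ).toAlgebra
  obtain ⟨D⟩ := h
  obtain ⟨e, -⟩ := exists_h0_equiv 𝒞 φ (fun _ => rfl) D hL h1
  have h2 := Module.rankAtStalk_baseChange (R := R) (M := L.H0) (S := κ) ⊥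
  have key : Module.finrank κ (κ ⊗[R] L.H0) =
      Module.rankAtStalk L.H0 (PrimeSpectrum.comap (algebraMap R κ) ⊥) := by
    rw [← h2, Module.rankAtStalk_eq_finrank_of_free]
    rfl
  rw [← e.finrank_eq, key]
  congr 1

end chart

end Fermat.Agent.S25.Lib.Coh
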